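import Fermat.Agent.GAL.Interface
import Fermat.Prelude.Def_GaloisRep_ComplexConjugation

/-!
# Chapter ALG of the Galois representation cluster: definitions

`ESDatumAt N M p` : Eichler-Shimura datum for cusp forms of level `N`, realised at an auxiliary
level `M` (all statements about a prime `ℓ` are only required for `ℓ ∤ M`).
`GeomInput` : what the geometric side has to deliver.
`cyclo p` : the `p`-adic cyclotomic character of `G_ℚ`.
-/

set_option autoImplicit false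

namespace Fermat.Agent.GAL

/-- Abstract Eichler-Shimura datum for cusp forms of level `N`, with bad primes those dividing
`M * p`. (For `M = N` this is `ESDatum N p`.) -/
structure ESDatumAt (N M p : ℕ) [NeZero N] [Fact p.Prime] where
  r : ℕ
  T : ℕ → Matrix (Fin r) (Fin r) ℤ
  T_comm : ∀ ℓ ℓ' : ℕ, T ℓ * T ℓ' = T ℓ' * T ℓ
  per : CuspForm (CongruenceSubgroup.Gamma0 N) 2 →ₗ[ℂ] (Fin r → ℂ)
  per_injective : Function.Injective per
  per_T : ∀ (ℓ : ℕ) (hℓ : ℓ.Prime) (hℓN : ¬ ℓ ∣ N), ¬ ℓ ∣ M →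
    ∀ f : CuspForm (CongruenceSubgroup.Gamma0 N) 2,
      per (CuspForm.heckeTLin 2 hℓ hℓN f) = ((T ℓ).map (Int.castRingHom ℂ)).mulVec (per f)
  ρ : GQ →* Matrix (Fin r) (Fin r) ℤ_[p]
  ρ_T : ∀ (σ : GQ) (ℓ : ℕ),
    ρ σ * (T ℓ).map (Int.castRingHom ℤ_[p]) = (T ℓ).map (Int.castRingHom ℤ_[p]) * ρ σ
  ρ_cont : ∀ k : ℕ, ∃ F : IntermediateField ℚ (AlgebraicClosure ℚ), FiniteDimensional ℚ F ∧
    ∀ σ : GQ, (∀ x ∈ F, σ x = x) → ∀ i j, (p : ℤ_[p]) ^ k ∣ (ρ σ - 1) i j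
  ρ_unram : ∀ ℓ : ℕ, ℓ.Prime → ¬ ℓ ∣ M * p →
    ∀ A : ValuationSubring (AlgebraicClosure ℚ), A.LiesOverPrime ℓ →
      ∀ σ ∈ A.inertiaSubgroupIn ℚ, ρ σ = 1
  ρ_ES : ∀ ℓ : ℕ, ℓ.Prime → ¬ ℓ ∣ M * p →
    ∀ A : ValuationSubring (AlgebraicClosure ℚ), A.LiesOverPrime ℓ →
      ∀ σ : GQ, A.IsFrobeniusAt σ ℓ →
        ρ σ * ρ σ - (T ℓ).map (Int.castRingHom ℤ_[p]) * ρ σ + (ℓ : Matrix (Fin r) (Fin r) ℤ_[p]) = 0

/-- An `ESDatum` is an `ESDatumAt` with `M = N`. -/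
def ESDatum.toAt {N p : ℕ} [NeZero N] [Fact p.Prime] (D : ESDatum N p) : ESDatumAt N N p where
  r := D.r
  T := D.T
  T_comm := D.T_comm
  per := D.per
  per_injective := D.per_injective
  per_T := fun ℓ hℓ hℓN _ f => D.per_T ℓ hℓ hℓN f
  ρ := D.ρ
  ρ_T := D.ρ_T
  ρ_cont := D.ρ_cont
  ρ_unram := D.ρ_unram
  ρ_ES := D.ρ_ES

/-- **What the geometric side has to deliver**: for every level `N`, every prime `p` and every
prime `q ∤ N p` an Eichler-Shimura datum for level `N` whose auxiliary level `M` is prime to `q`.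
(E.g. `M = N`; or `M = lcm N 4` for odd `q` and `M = lcm N 9` for `q = 2`.) -/
def GeomInput : Prop :=
  ∀ (N p : ℕ) [NeZero N] [Fact p.Prime] (q : ℕ), q.Prime → ¬ q ∣ N * p →
    ∃ M : ℕ, ¬ q ∣ M ∧ Nonempty (ESDatumAt N M p)

/-- The `p`-adic cyclotomic character of `G_ℚ`. -/
noncomputable def cyclo (p : ℕ) [Fact p.Prime] : GQ →* ℤ_[p]ˣ :=
  (cyclotomicCharacter (AlgebraicClosure ℚ) p).comp
    (MulSemiringAction.toRingAut GQ (AlgebraicClosure ℚ))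

end Fermat.Agent.GAL
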