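import Fermat.Agent.GAL.ALG.Defs
import Fermat.Agent.GAL.Cyclo

set_option autoImplicit false

namespace Fermat.Agent.GAL

variable (p : ℕ) [Fact p.Prime]

/-- `cyclo` is the character `Cyclo.eps`. -/
theorem cyclo_eq_eps : cyclo p = Cyclo.eps p := rfl

/-- defining property of `cyclo` -/
theorem cyclo_spec (σ : GQ) (n : ℕ) (ζ : AlgebraicClosure ℚ) (hζ : ζ ^ p ^ n = 1) :
    σ ζ = ζ ^ (((cyclo p σ : ℤ_[p]ˣ) : ℤ_[p]).toZModPow n).val :=
  Cyclo.eps_spec p σ hζ

/-- continuity of `cyclo` -/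
theorem cyclo_cont (k : ℕ) : ∃ F : IntermediateField ℚ (AlgebraicClosure ℚ),
    FiniteDimensional ℚ F ∧
      ∀ σ : GQ, (∀ x ∈ F, σ x = x) → (p : ℤ_[p]) ^ k ∣ ((cyclo p σ : ℤ_[p]ˣ) : ℤ_[p]) - 1 :=
  Cyclo.eps_cont p k

/-- complex conjugation inverts roots of unity. -/
theorem complexConjugation_root_of_unity (m : ℕ) (t : AlgebraicClosure ℚ) (hm : m ≠ 0)
    (ht : t ^ m = 1) : complexConjugation t = t⁻¹ := by
  apply complexEmbedding.toRingHom.injective
  show complexEmbedding (complexConjugation t) = complexEmbedding t⁻¹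
  rw [complexEmbedding_complexConjugation, map_inv₀]
  have hn : ‖complexEmbedding t‖ = 1 :=
    Complex.norm_eq_one_of_pow_eq_one (by rw [← map_pow, ht, map_one]) hm
  exact (Complex.inv_eq_conj hn).symm

/-- `cyclo` of complex conjugation is `-1`. -/
theorem cyclo_complexConjugation : cyclo p complexConjugation = -1 :=
  Cyclo.eps_eq_neg_one_of_inv p complexConjugation_root_of_unity

end Fermat.Agent.GAL
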