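import Fermat.Agent.GAL.ALG.Cyclo

set_option autoImplicit false

namespace Fermat.Agent.GAL

variable (p : ℕ) [Fact p.Prime]

/-- `cyclo` of a Frobenius element at `ℓ ≠ p` is `ℓ`. -/
theorem cyclo_frobenius {ℓ : ℕ} (hℓ : ℓ.Prime) (hℓp : ℓ ≠ p)
    (A : ValuationSubring (AlgebraicClosure ℚ)) (hA : A.LiesOverPrime ℓ) (σ : GQ)
    (hσ : A.IsFrobeniusAt σ ℓ) : ((cyclo p σ : ℤ_[p]ˣ) : ℤ_[p]) = (ℓ : ℤ_[p]) :=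
  Cyclo.eps_frobenius p hℓ hℓp hA hσ

/-- `cyclo` is unramified outside `p`. -/
theorem cyclo_inertia {ℓ : ℕ} (hℓ : ℓ.Prime) (hℓp : ℓ ≠ p)
    (A : ValuationSubring (AlgebraicClosure ℚ)) (hA : A.LiesOverPrime ℓ) (σ : GQ)
    (hσ : σ ∈ A.inertiaSubgroupIn ℚ) : cyclo p σ = 1 :=
  Cyclo.eps_inertia p hℓ hℓp hA hσ

end Fermat.Agent.GAL
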