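import Fermat.Agent.GAL.ALG.CycloFrob

/-!
# The cyclotomic character with values in a `ℤ_p`-algebra
-/

set_option autoImplicit false

namespace Fermat.Agent.GAL

section

variable {p : ℕ} [Fact p.Prime] {O : Type} [CommRing O]

/-- the cyclotomic character with values in `O` -/
noncomputable def cycloO (ι : ℤ_[p] →+* O) : GQ →* Oˣ := (Units.map (ι : ℤ_[p] →* O)).comp (cyclo p)

theorem cycloO_coe (ι : ℤ_[p] →+* O) (σ : GQ) :
    ((cycloO ι σ : Oˣ) : O) = ι ((cyclo p σ : ℤ_[p]ˣ) : ℤ_[p]) := rfl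

theorem cycloO_cont [IsLocalRing O] (ι : ℤ_[p] →+* O) (hp : (p : O) ∈ IsLocalRing.maximalIdeal O) (n : ℕ) :
    ∃ F : IntermediateField ℚ (AlgebraicClosure ℚ), FiniteDimensional ℚ F ∧
      ∀ σ : GQ, (∀ x ∈ F, σ x = x) →
        ((cycloO ι σ : Oˣ) : O) - 1 ∈ IsLocalRing.maximalIdeal O ^ n := by
  obtain ⟨F, hF, h⟩ := cyclo_cont p n
  refine ⟨F, hF, fun σ hσ => ?_⟩
  obtain ⟨y, hy⟩ := h σ hσ
  have : ((cycloO ι σ : Oˣ) : O) - 1 = (p : O) ^ n * ι y := by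
    rw [cycloO_coe, ← map_one ι, ← map_sub, hy, map_mul, map_pow, map_natCast]
  rw [this]
  exact Ideal.mul_mem_right _ _ (Ideal.pow_mem_pow hp n)

theorem cycloO_frobenius (ι : ℤ_[p] →+* O) {ℓ : ℕ} (hℓ : ℓ.Prime) (hℓp : ℓ ≠ p)
    (A : ValuationSubring (AlgebraicClosure ℚ)) (hA : A.LiesOverPrime ℓ) (σ : GQ)
    (hσ : A.IsFrobeniusAt σ ℓ) : ((cycloO ι σ : Oˣ) : O) = (ℓ : O) := by
  rw [cycloO_coe, cyclo_frobenius p hℓ hℓp A hA σ hσ, map_natCast]

theorem cycloO_inertia (ι : ℤ_[p] →+* O) {ℓ : ℕ} (hℓ : ℓ.Prime) (hℓp : ℓ ≠ p)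
    (A : ValuationSubring (AlgebraicClosure ℚ)) (hA : A.LiesOverPrime ℓ) (σ : GQ)
    (hσ : σ ∈ A.inertiaSubgroupIn ℚ) : cycloO ι σ = 1 := by
  rw [cycloO, MonoidHom.comp_apply, cyclo_inertia p hℓ hℓp A hA σ hσ, map_one]

theorem cycloO_complexConjugation (ι : ℤ_[p] →+* O) : cycloO ι complexConjugation = -1 := by
  rw [cycloO, MonoidHom.comp_apply, cyclo_complexConjugation]
  ext
  simp

end

/-- from the quadratic relation to the scalar form -/
theorem scalar_of_quadratic {G : Type} [Group G] {O : Type} [CommRing O]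
    {Λ : Type} [AddCommGroup Λ] [Module O Λ] (r : G →* Module.End O Λ) (g : G) (a e : O)
    (h : r g * r g - a • r g + e • (1 : Module.End O Λ) = 0) :
    r g + e • r g⁻¹ = a • 1 := by
  have h1 : r g * r g⁻¹ = 1 := by rw [← map_mul, mul_inv_cancel, map_one]
  have h2 := congrArg (fun z => z * r g⁻¹) h
  simp only [add_mul, sub_mul, mul_assoc, h1, mul_one, smul_mul_assoc, one_mul, zero_mul] at h2
  rw [← sub_eq_zero, ← h2]
  abel

end Fermat.Agent.GAL
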