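import Mathlib

set_option autoImplicit false

namespace Fermat.Agent.GAL

open TensorProduct

theorem eigenCore_nontrivial_residue {C : Type*} [CommRing C] {M : Type*} [AddCommGroup M]
    [Module C M] [Module.Finite C M] (hM : Module.annihilator C M = ⊥)
    (P : PrimeSpectrum C) : Nontrivial (P.asIdeal.ResidueField ⊗[C] M) := by
  rw [← Module.mem_support_iff_nontrivial_residueField_tensorProduct,
    Module.mem_support_iff_of_finite, hM]
  exact bot_le

theorem eigenCore_nontrivial_ext {C : Type*} [CommRing C] {M : Type*} [AddCommGroup M]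
    [Module C M] {k K : Type*} [Field k] [Field K] [Algebra C k] [Algebra C K] [Algebra k K]
    [IsScalarTower C k K] [Nontrivial (k ⊗[C] M)] : Nontrivial (K ⊗[C] M) := by
  have h3 : Nontrivial (K ⊗[k] (k ⊗[C] M)) := inferInstance
  exact (TensorProduct.AlgebraTensorModule.cancelBaseChange C k k K M).symm.toEquiv.nontrivial

/-- A finite faithful module stays nonzero after base change to any field. -/
theorem eigenCore_nontrivial_tensor {C : Type*} [CommRing C] {M : Type*} [AddCommGroup M]
    [Module C M] [Module.Finite C M] (hM : Module.annihilator C M = ⊥)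
    {K : Type*} [Field K] [Algebra C K] : Nontrivial (K ⊗[C] M) := by
  obtain ⟨P, hP⟩ : ∃ P : PrimeSpectrum C, P.asIdeal = RingHom.ker (algebraMap C K) :=
    ⟨⟨RingHom.ker (algebraMap C K), RingHom.ker_isPrime _⟩, rfl⟩
  have h2 : Nontrivial (P.asIdeal.ResidueField ⊗[C] M) := eigenCore_nontrivial_residue hM P
  let f : P.asIdeal.ResidueField →+* K :=
    Ideal.ResidueField.lift P.asIdeal (algebraMap C K) hP.le (by
      intro x hx
      have : algebraMap C K x ≠ 0 := fun h => hx (hP ▸ h)
      exact this.isUnit)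
  let _ : Algebra P.asIdeal.ResidueField K := f.toAlgebra
  have : IsScalarTower C P.asIdeal.ResidueField K := IsScalarTower.of_algebraMap_eq
    (fun x => (Ideal.ResidueField.lift_algebraMap P.asIdeal _ _ _ x).symm)
  exact eigenCore_nontrivial_ext (k := P.asIdeal.ResidueField)

theorem eigenCore_aux {r : ℕ} {C : Type*} [CommRing C] [Module C (Fin r → ℤ)]
    (Φ : C → Matrix (Fin r) (Fin r) ℤ) (hsmul : ∀ (x : C) (v : Fin r → ℤ), x • v = (Φ x).mulVec v)
    {K : Type*} [Field K] [Algebra C K] [Nontrivial (K ⊗[C] (Fin r → ℤ))] :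
    Submodule.span K {w : Fin r → K | ∃ (x : C) (v : Fin r → K),
      w = ((Φ x).map (Int.castRingHom K)).mulVec v - algebraMap C K x • v} ≠ ⊤ := by
  intro htop
  let t : Fin r → K ⊗[C] (Fin r → ℤ) := fun j => 1 ⊗ₜ Pi.single j 1
  let π : (Fin r → K) →ₗ[K] K ⊗[C] (Fin r → ℤ) := (Pi.basisFun K (Fin r)).constr K t
  have hπ : ∀ v, π v = ∑ j, v j • t j := fun v => by
    simp [π, Module.Basis.constr_apply_fintype]
  have hx : ∀ (x : C) (i : Fin r),
      algebraMap C K x • t i = ∑ j, ((Φ x j i : ℤ) : K) • t j := by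
    intro x i
    have h1 : algebraMap C K x • t i = (1 : K) ⊗ₜ[C] (x • (Pi.single i 1 : Fin r → ℤ)) := by
      rw [TensorProduct.tmul_smul, algebraMap_smul]
    have h2 : (Φ x).mulVec (Pi.single i 1) = ∑ j, (Φ x j i) • (Pi.single j 1 : Fin r → ℤ) := by
      ext l
      simp [Finset.sum_apply, Pi.single_apply]
    rw [h1, hsmul, h2, TensorProduct.tmul_sum]
    refine Finset.sum_congr rfl fun j _ => ?_
    rw [TensorProduct.tmul_smul]
    exact (Int.cast_smul_eq_zsmul K (Φ x j i) (t j)).symm
  have hkill : ∀ (x : C) (v : Fin r → K),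
      π (((Φ x).map (Int.castRingHom K)).mulVec v - algebraMap C K x • v) = 0 := by
    intro x v
    rw [map_sub, sub_eq_zero, hπ, hπ]
    simp only [Matrix.mulVec, dotProduct, Matrix.map_apply, Pi.smul_apply, smul_eq_mul,
      Finset.sum_smul, Int.coe_castRingHom]
    rw [Finset.sum_comm]
    refine Finset.sum_congr rfl fun i _ => ?_
    rw [mul_comm (algebraMap C K x), mul_smul, hx, Finset.smul_sum]
    refine Finset.sum_congr rfl fun j _ => ?_
    rw [smul_smul, mul_comm]
  have hzero : π = 0 := by
    have h1 : Submodule.span K {w : Fin r → K | ∃ (x : C) (v : Fin r → K),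
        w = ((Φ x).map (Int.castRingHom K)).mulVec v - algebraMap C K x • v} ≤
        LinearMap.ker π := Submodule.span_le.mpr (by
      rintro _ ⟨x, v, rfl⟩
      exact hkill x v)
    rw [htop, top_le_iff, LinearMap.ker_eq_top] at h1
    exact h1
  have ht : ∀ j, t j = 0 := fun j => by
    have h1 := hπ (Pi.single j 1)
    rw [hzero] at h1
    simpa [Pi.single_apply, ite_smul] using h1.symm
  have hall : ∀ z : K ⊗[C] (Fin r → ℤ), z = 0 := by
    intro z
    induction z using TensorProduct.induction_on with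
    | zero => rfl
    | tmul a l =>
      have hl : l = ∑ j, l j • (Pi.single j 1 : Fin r → ℤ) := by
        ext i
        simp [Finset.sum_apply, Pi.single_apply]
      rw [hl, TensorProduct.tmul_sum]
      refine Finset.sum_eq_zero fun j _ => ?_
      have h1 : a ⊗ₜ[C] (Pi.single j 1 : Fin r → ℤ) = a • t j := by
        simp [t, TensorProduct.smul_tmul']
      rw [TensorProduct.tmul_smul, h1, ht, smul_zero, smul_zero]
    | add a b ha hb => rw [ha, hb, add_zero]
  obtain ⟨a, b, hab⟩ := exists_pair_ne (K ⊗[C] (Fin r → ℤ))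
  exact hab ((hall a).trans (hall b).symm)

/-- **Eigen-quotient is nonzero** (any characteristic). `C` a commutative ring acting faithfully on
`ℤ^r` through `Φ`, `θ : C → K` a character with values in a field. Then the `K`-span of all
`(Φ x - θ x) v` is a proper subspace of `K^r`. -/
theorem eigen_span_ne_top {r : ℕ} {C : Type} [CommRing C]
    (Φ : C →+* Matrix (Fin r) (Fin r) ℤ) (hΦ : Function.Injective Φ)
    {K : Type} [Field K] (θ : C →+* K) :
    Submodule.span K {w : Fin r → K | ∃ (x : C) (v : Fin r → K),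
      w = ((Φ x).map (Int.castRingHom K)).mulVec v - θ x • v} ≠ ⊤ := by
  let Φ' : C →+* Module.End ℤ (Fin r → ℤ) :=
    ((Matrix.toLinAlgEquiv' : Matrix (Fin r) (Fin r) ℤ ≃ₐ[ℤ] _).toAlgHom.toRingHom).comp Φ
  let _ : Module C (Fin r → ℤ) := Module.compHom _ Φ'
  have hsmul : ∀ (x : C) (v : Fin r → ℤ), x • v = (Φ x).mulVec v := fun x v => rfl
  let _ : Algebra C K := θ.toAlgebra
  have hfin : Module.Finite C (Fin r → ℤ) := Module.Finite.of_restrictScalars_finite ℤ C _
  have hann : Module.annihilator C (Fin r → ℤ) = ⊥ := by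
    rw [eq_bot_iff]
    intro x hx
    rw [Module.mem_annihilator] at hx
    rw [Ideal.mem_bot]
    apply hΦ
    rw [map_zero]
    ext i j
    have := congrFun (hx (Pi.single j 1)) i
    rw [hsmul] at this
    simpa using this
  have hnt : Nontrivial (K ⊗[C] (Fin r → ℤ)) := eigenCore_nontrivial_tensor hann
  exact eigenCore_aux (fun x => Φ x) hsmul

end Fermat.Agent.GAL
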