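import Fermat.Agent.GAL.ALG.Defs

set_option autoImplicit false

namespace Fermat.Agent.GAL

/-- the generators `(D.T ℓ, T_ℓ)` of the ring of Hecke correspondences. -/
def heckeCorrGens {N M p : ℕ} [NeZero N] [Fact p.Prime] (D : ESDatumAt N M p) (S : Set ℕ) :
    Set (Matrix (Fin D.r) (Fin D.r) ℤ × CuspForm.heckeAlgebra N 2 S) :=
  {x | ∃ (ℓ : ℕ) (hℓ : ℓ.Prime) (hℓN : ¬ ℓ ∣ N) (hℓS : ℓ ∉ S), ¬ ℓ ∣ M ∧
    x = (D.T ℓ, CuspForm.heckeAlgebra.T hℓ hℓN hℓS)}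

theorem heckeCorrGens_comm {N M p : ℕ} [NeZero N] [Fact p.Prime] (D : ESDatumAt N M p)
    (S : Set ℕ) : ∀ x ∈ heckeCorrGens D S, ∀ y ∈ heckeCorrGens D S, x * y = y * x := by
  rintro _ ⟨ℓ, hℓ, hℓN, hℓS, _, rfl⟩ _ ⟨ℓ', hℓ', hℓN', hℓS', _, rfl⟩
  exact Prod.ext (D.T_comm ℓ ℓ') (mul_comm _ _)

theorem heckeCorr_per {N M p : ℕ} [NeZero N] [Fact p.Prime] (D : ESDatumAt N M p) (S : Set ℕ)
    (x : Matrix (Fin D.r) (Fin D.r) ℤ × CuspForm.heckeAlgebra N 2 S)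
    (hx : x ∈ Subring.closure (heckeCorrGens D S))
    (f : CuspForm (CongruenceSubgroup.Gamma0 N) 2) :
    D.per (x.2.1 f) = (x.1.map (Int.castRingHom ℂ)).mulVec (D.per f) := by
  induction hx using Subring.closure_induction generalizing f with
  | mem x hx =>
    obtain ⟨ℓ, hℓ, hℓN, hℓS, hM, rfl⟩ := hx
    exact D.per_T ℓ hℓ hℓN hM f
  | zero => simp
  | one => simp
  | add x y _ _ hx hy =>
    have e1 : ((x + y).2.1 : Module.End ℂ _) f = x.2.1 f + y.2.1 f := rfl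
    have e2 : (x + y).1.map (Int.castRingHom ℂ)
        = x.1.map (Int.castRingHom ℂ) + y.1.map (Int.castRingHom ℂ) := by
      rw [Prod.fst_add, Matrix.map_add _ (fun a b => map_add _ a b)]
    rw [e1, e2, map_add, hx, hy, Matrix.add_mulVec]
  | neg x _ hx =>
    have e1 : ((-x).2.1 : Module.End ℂ _) f = - x.2.1 f := rfl
    have e2 : (-x).1.map (Int.castRingHom ℂ) = - x.1.map (Int.castRingHom ℂ) := by
      rw [Prod.fst_neg, Matrix.map_neg _ (fun a => map_neg _ a)]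
    rw [e1, e2, map_neg, hx, Matrix.neg_mulVec]
  | mul x y _ _ hx hy =>
    have e1 : ((x * y).2.1 : Module.End ℂ _) f = x.2.1 (y.2.1 f) := rfl
    have e2 : (x * y).1.map (Int.castRingHom ℂ)
        = x.1.map (Int.castRingHom ℂ) * y.1.map (Int.castRingHom ℂ) := by
      rw [Prod.fst_mul, Matrix.map_mul]
    rw [e1, e2, hx, hy, Matrix.mulVec_mulVec]

theorem heckeCorr_rho {N M p : ℕ} [NeZero N] [Fact p.Prime] (D : ESDatumAt N M p) (S : Set ℕ)
    (x : Matrix (Fin D.r) (Fin D.r) ℤ × CuspForm.heckeAlgebra N 2 S)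
    (hx : x ∈ Subring.closure (heckeCorrGens D S)) (σ : GQ) :
    D.ρ σ * x.1.map (Int.castRingHom ℤ_[p]) = x.1.map (Int.castRingHom ℤ_[p]) * D.ρ σ := by
  induction hx using Subring.closure_induction with
  | mem x hx =>
    obtain ⟨ℓ, hℓ, hℓN, hℓS, hM, rfl⟩ := hx
    exact D.ρ_T σ ℓ
  | zero => simp
  | one => simp
  | add x y _ _ hx hy =>
    have e2 : (x + y).1.map (Int.castRingHom ℤ_[p])
        = x.1.map (Int.castRingHom ℤ_[p]) + y.1.map (Int.castRingHom ℤ_[p]) := by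
      rw [Prod.fst_add, Matrix.map_add _ (fun a b => map_add _ a b)]
    rw [e2, mul_add, add_mul, hx, hy]
  | neg x _ hx =>
    have e2 : (-x).1.map (Int.castRingHom ℤ_[p]) = - x.1.map (Int.castRingHom ℤ_[p]) := by
      rw [Prod.fst_neg, Matrix.map_neg _ (fun a => map_neg _ a)]
    rw [e2, mul_neg, neg_mul, hx]
  | mul x y _ _ hx hy =>
    have e2 : (x * y).1.map (Int.castRingHom ℤ_[p])
        = x.1.map (Int.castRingHom ℤ_[p]) * y.1.map (Int.castRingHom ℤ_[p]) := by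
      rw [Prod.fst_mul, Matrix.map_mul]
    rw [e2, ← mul_assoc, hx, mul_assoc, hy, mul_assoc]

/-- The commutative ring of Hecke correspondences: the subring of
`M_r(ℤ) × heckeAlgebra N 2 S` generated by the pairs `(D.T ℓ, T_ℓ)`, `ℓ ∤ N M`, `ℓ ∉ S`.
Its first projection is injective because `D.per` is injective. -/
theorem exists_heckeCorr {N M p : ℕ} [NeZero N] [Fact p.Prime] (D : ESDatumAt N M p) (S : Set ℕ) :
    ∃ (C : Type) (_ : CommRing C) (Φ : C →+* Matrix (Fin D.r) (Fin D.r) ℤ)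
      (Ψ : C →+* CuspForm.heckeAlgebra N 2 S),
      Function.Injective Φ ∧
      (∀ (x : C) (σ : GQ), D.ρ σ * (Φ x).map (Int.castRingHom ℤ_[p]) =
        (Φ x).map (Int.castRingHom ℤ_[p]) * D.ρ σ) ∧
      (∀ (ℓ : ℕ) (hℓ : ℓ.Prime) (hℓN : ¬ ℓ ∣ N) (hℓS : ℓ ∉ S), ¬ ℓ ∣ M →
        ∃ x : C, Φ x = D.T ℓ ∧ Ψ x = CuspForm.heckeAlgebra.T hℓ hℓN hℓS) := by
  refine ⟨Subring.closure (heckeCorrGens D S),
    Subring.closureCommRingOfComm (heckeCorrGens_comm D S),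
    (RingHom.fst _ _).comp (Subring.subtype _), (RingHom.snd _ _).comp (Subring.subtype _),
    ?_, ?_, ?_⟩
  · rintro ⟨x, hx⟩ ⟨y, hy⟩ h
    have h1 : x.1 = y.1 := h
    apply Subtype.ext
    refine Prod.ext h1 ?_
    apply Subtype.ext
    apply LinearMap.ext
    intro f
    apply D.per_injective
    rw [heckeCorr_per D S x hx f, heckeCorr_per D S y hy f, h1]
  · rintro ⟨x, hx⟩ σ
    exact heckeCorr_rho D S x hx σ
  · intro ℓ hℓ hℓN hℓS hM
    exact ⟨⟨(D.T ℓ, CuspForm.heckeAlgebra.T hℓ hℓN hℓS),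
      Subring.subset_closure ⟨ℓ, hℓ, hℓN, hℓS, hM, rfl⟩⟩, rfl, rfl⟩

end Fermat.Agent.GAL
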