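import Fermat.Agent.GAL.ALG.EigenCore
import Fermat.Agent.GAL.ALG.HeckeCorr

set_option autoImplicit false

namespace Fermat.Agent.GAL

namespace EigenLattice

variable {r : ℕ} {O : Type} [CommRing O] [IsDomain O]

/-- coordinatewise embedding `O^r → K^r`, `K = Frac O`. -/
noncomputable def emb (r : ℕ) (O : Type) [CommRing O] [IsDomain O] :
    (Fin r → O) →ₗ[O] (Fin r → FractionRing O) :=
  (Algebra.linearMap O (FractionRing O)).compLeft (Fin r)

theorem emb_apply (y : Fin r → O) (i : Fin r) :
    emb r O y i = algebraMap O (FractionRing O) (y i) := rfl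

theorem emb_mulVec (A : Matrix (Fin r) (Fin r) O) (y : Fin r → O) :
    emb r O (A.mulVec y) = (A.map (algebraMap O (FractionRing O))).mulVec (emb r O y) := by
  ext i
  exact RingHom.map_mulVec (algebraMap O (FractionRing O)) A y i

/-- the lattice `U ∩ O^r`. -/
noncomputable def lat (U : Submodule (FractionRing O) (Fin r → FractionRing O)) :
    Submodule O (Fin r → O) :=
  (U.restrictScalars O).comap (emb r O)

theorem mem_lat (U : Submodule (FractionRing O) (Fin r → FractionRing O)) (y : Fin r → O) :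
    y ∈ lat U ↔ emb r O y ∈ U := Iff.rfl

theorem isTorsionFree_quot (U : Submodule (FractionRing O) (Fin r → FractionRing O)) :
    Module.IsTorsionFree O ((Fin r → O) ⧸ lat U) := by
  refine Module.IsTorsionFree.of_smul_eq_zero fun a m h => ?_
  obtain ⟨y, rfl⟩ := Submodule.Quotient.mk_surjective _ m
  by_cases ha : a = 0
  · exact Or.inl ha
  right
  rw [← Submodule.Quotient.mk_smul, Submodule.Quotient.mk_eq_zero, mem_lat, map_smul,
    algebra_compatible_smul (FractionRing O) a] at h
  rw [Submodule.Quotient.mk_eq_zero, mem_lat]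
  have ha' : algebraMap O (FractionRing O) a ≠ 0 := by
    simpa using (IsFractionRing.injective O (FractionRing O)).ne ha
  exact (Submodule.smul_mem_iff U ha').mp h

theorem nontrivial_quot {U : Submodule (FractionRing O) (Fin r → FractionRing O)} (hU : U ≠ ⊤) :
    Nontrivial ((Fin r → O) ⧸ lat U) := by
  classical
  rw [Submodule.Quotient.nontrivial_iff]
  intro htop
  apply hU
  rw [eq_top_iff]
  intro v _
  have hv : v = ∑ j, v j • emb r O (Pi.single j 1) := by
    ext i
    simp only [Finset.sum_apply, Pi.smul_apply, emb_apply, smul_eq_mul]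
    rw [Finset.sum_eq_single i]
    · simp
    · intro j _ hj
      simp [Pi.single_eq_of_ne (Ne.symm hj)]
    · simp
  rw [hv]
  refine Submodule.sum_mem _ fun j _ => U.smul_mem _ ?_
  rw [← mem_lat, htop]
  trivial

/-- the endomorphism of `O^r / (U ∩ O^r)` induced by a matrix preserving the lattice. -/
noncomputable def act (U : Submodule (FractionRing O) (Fin r → FractionRing O))
    (A : Matrix (Fin r) (Fin r) O) (hA : ∀ y ∈ lat U, A.mulVec y ∈ lat U) :
    Module.End O ((Fin r → O) ⧸ lat U) :=
  (lat U).mapQ (lat U) A.mulVecLin hA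

theorem act_mk (U : Submodule (FractionRing O) (Fin r → FractionRing O))
    (A : Matrix (Fin r) (Fin r) O) (hA : ∀ y ∈ lat U, A.mulVec y ∈ lat U) (y : Fin r → O) :
    act U A hA (Submodule.Quotient.mk y) = Submodule.Quotient.mk (A.mulVec y) := rfl

end EigenLattice

open EigenLattice in
/-- **The eigen-lattice of a character of the Hecke algebra.**
`O` is a local PID (a DVR, or a field of characteristic `p`!) with a ring hom from `ℤ_p`.
Output: a nonzero finite free `O`-module with a continuous `G_ℚ`-action which is a quotient of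
`D.ρ ⊗ O` on which `D.T ℓ` acts through `χ (T_ℓ)`. -/
theorem exists_eigenLattice {N M p : ℕ} [NeZero N] [Fact p.Prime] (D : ESDatumAt N M p)
    (S : Set ℕ) (O : Type) [CommRing O] [IsDomain O] [IsPrincipalIdealRing O] [IsLocalRing O]
    (hp : (p : O) ∈ IsLocalRing.maximalIdeal O) (ι : ℤ_[p] →+* O)
    (χ : CuspForm.heckeAlgebra N 2 S →+* O) :
    ∃ (Λ : Type) (_ : AddCommGroup Λ) (_ : Module O Λ) (_ : Module.Free O Λ)
      (_ : Module.Finite O Λ) (_ : Nontrivial Λ) (r : GQ →* Module.End O Λ),
      GaloisActionIsAdicContinuous O r ∧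
      (∀ σ : GQ, D.ρ σ = 1 → r σ = 1) ∧
      (∀ (ℓ : ℕ) (hℓ : ℓ.Prime) (hℓN : ¬ ℓ ∣ N) (hℓS : ℓ ∉ S), ¬ ℓ ∣ M → ∀ σ : GQ,
        D.ρ σ * D.ρ σ - (D.T ℓ).map (Int.castRingHom ℤ_[p]) * D.ρ σ
            + (ℓ : Matrix (Fin D.r) (Fin D.r) ℤ_[p]) = 0 →
        r σ * r σ - χ (CuspForm.heckeAlgebra.T hℓ hℓN hℓS) • r σ
            + (ℓ : O) • (1 : Module.End O Λ) = 0) := by
  classical
  obtain ⟨C, _, Φ, Ψ, hΦ, hcomm, hT⟩ := exists_heckeCorr D S
  let θ : C →+* FractionRing O := (algebraMap O (FractionRing O)).comp (χ.comp Ψ)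
  let U : Submodule (FractionRing O) (Fin D.r → FractionRing O) :=
    Submodule.span (FractionRing O) {w | ∃ (x : C) (v : Fin D.r → FractionRing O),
      w = ((Φ x).map (Int.castRingHom (FractionRing O))).mulVec v - θ x • v}
  have hU : U ≠ ⊤ := eigen_span_ne_top Φ hΦ θ
  let A : GQ →* Matrix (Fin D.r) (Fin D.r) O := (ι.mapMatrix (m := Fin D.r)).toMonoidHom.comp D.ρ
  have hA : ∀ σ, A σ = (D.ρ σ).map ι := fun σ => rfl
  have hcommK : ∀ (x : C) (σ : GQ),
      (A σ).map (algebraMap O (FractionRing O)) * (Φ x).map (Int.castRingHom (FractionRing O)) =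
        (Φ x).map (Int.castRingHom (FractionRing O)) * (A σ).map (algebraMap O (FractionRing O)) := by
    intro x σ
    have h := congrArg (fun M => M.map ((algebraMap O (FractionRing O)).comp ι)) (hcomm x σ)
    simp only [Matrix.map_mul] at h
    have e1 : ((Φ x).map (Int.castRingHom ℤ_[p])).map ((algebraMap O (FractionRing O)).comp ι) =
        (Φ x).map (Int.castRingHom (FractionRing O)) := by
      ext i j; simp
    have e2 : (D.ρ σ).map ((algebraMap O (FractionRing O)).comp ι) =
        (A σ).map (algebraMap O (FractionRing O)) := by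
      ext i j; simp [hA]
    rw [e1, e2] at h
    exact h
  have hpresK : ∀ σ : GQ, ∀ w ∈ U, ((A σ).map (algebraMap O (FractionRing O))).mulVec w ∈ U := by
    intro σ w hw
    induction hw using Submodule.span_induction with
    | mem w hw =>
      obtain ⟨x, v, rfl⟩ := hw
      apply Submodule.subset_span
      refine ⟨x, ((A σ).map (algebraMap O (FractionRing O))).mulVec v, ?_⟩
      rw [Matrix.mulVec_sub, Matrix.mulVec_smul, Matrix.mulVec_mulVec, Matrix.mulVec_mulVec, hcommK]
    | zero => simp
    | add a b _ _ ha hb => rw [Matrix.mulVec_add]; exact add_mem ha hb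
    | smul c a _ ha => rw [Matrix.mulVec_smul]; exact U.smul_mem c ha
  have hpres : ∀ σ : GQ, ∀ y ∈ lat U, (A σ).mulVec y ∈ lat U := by
    intro σ y hy
    rw [mem_lat, emb_mulVec]
    exact hpresK σ _ hy
  let R : GQ →* Module.End O ((Fin D.r → O) ⧸ lat U) :=
    { toFun := fun σ => act U (A σ) (hpres σ)
      map_one' := by
        apply LinearMap.ext
        intro v
        obtain ⟨y, rfl⟩ := Submodule.Quotient.mk_surjective _ v
        rw [act_mk]
        simp
      map_mul' := by
        intro σ τ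
        apply LinearMap.ext
        intro v
        obtain ⟨y, rfl⟩ := Submodule.Quotient.mk_surjective _ v
        rw [Module.End.mul_apply, act_mk, act_mk, act_mk, map_mul, Matrix.mulVec_mulVec] }
  have hR : ∀ σ y, R σ (Submodule.Quotient.mk y) = Submodule.Quotient.mk ((A σ).mulVec y) :=
    fun σ y => rfl
  have hTF := isTorsionFree_quot U
  refine ⟨(Fin D.r → O) ⧸ lat U, inferInstance, inferInstance, inferInstance, inferInstance,
    nontrivial_quot hU, R, ?_, ?_, ?_⟩
  · -- continuity
    intro n
    obtain ⟨F, hF, hFσ⟩ := D.ρ_cont n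
    refine ⟨F, hF, fun σ hσ v => ?_⟩
    obtain ⟨y, rfl⟩ := Submodule.Quotient.mk_surjective _ v
    have hdvd := hFσ σ hσ
    choose c hc using hdvd
    have hkey : (A σ).mulVec y - y = ((p : O) ^ n) • (fun i => ∑ j, ι (c i j) * y j) := by
      ext i
      have h1 : ∀ j, A σ i j = (1 : Matrix (Fin D.r) (Fin D.r) O) i j + (p : O) ^ n * ι (c i j) := by
        intro j
        have h2 := congrArg ι (hc i j)
        rw [Matrix.sub_apply, map_sub, map_mul, map_pow, map_natCast] at h2
        have h3 : ι ((1 : Matrix (Fin D.r) (Fin D.r) ℤ_[p]) i j) =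
            (1 : Matrix (Fin D.r) (Fin D.r) O) i j := by
          by_cases hij : i = j
          · subst hij; simp
          · simp [Matrix.one_apply_ne hij]
        rw [h3] at h2
        rw [hA, Matrix.map_apply, ← h2]
        ring
      have h4 : (A σ).mulVec y i = ∑ j, A σ i j * y j := rfl
      have h5 : y i = ∑ j, (1 : Matrix (Fin D.r) (Fin D.r) O) i j * y j := by
        have : (1 : Matrix (Fin D.r) (Fin D.r) O).mulVec y i = y i := by rw [Matrix.one_mulVec]
        rw [← this]; rfl
      rw [Pi.sub_apply, h4, Pi.smul_apply, smul_eq_mul, Finset.mul_sum]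
      conv_lhs => rw [h5]
      rw [← Finset.sum_sub_distrib]
      refine Finset.sum_congr rfl fun j _ => ?_
      rw [h1 j]
      ring
    rw [hR, ← Submodule.Quotient.mk_sub, hkey, Submodule.Quotient.mk_smul]
    exact Submodule.smul_mem_smul (Ideal.pow_mem_pow hp n) trivial
  · intro σ hσ
    apply LinearMap.ext
    intro v
    obtain ⟨y, rfl⟩ := Submodule.Quotient.mk_surjective _ v
    rw [hR, hA, hσ]
    simp
  · intro ℓ hℓ hℓN hℓS hℓM σ hrel
    obtain ⟨x, hx1, hx2⟩ := hT ℓ hℓ hℓN hℓS hℓM
    have hrelO : A σ * A σ - (D.T ℓ).map (Int.castRingHom O) * A σ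
        + (ℓ : Matrix (Fin D.r) (Fin D.r) O) = 0 := by
      have h := congrArg ι.mapMatrix hrel
      simp only [map_add, map_sub, map_mul, map_natCast, map_zero] at h
      have e1 : ι.mapMatrix ((D.T ℓ).map (Int.castRingHom ℤ_[p])) =
          (D.T ℓ).map (Int.castRingHom O) := by
        ext i j; simp
      rw [e1] at h
      exact h
    apply LinearMap.ext
    intro v
    obtain ⟨y, rfl⟩ := Submodule.Quotient.mk_surjective _ v
    rw [LinearMap.add_apply, LinearMap.sub_apply, Module.End.mul_apply, LinearMap.smul_apply,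
      LinearMap.smul_apply, Module.End.one_apply, hR, hR, ← Submodule.Quotient.mk_smul,
      ← Submodule.Quotient.mk_smul, ← Submodule.Quotient.mk_sub, ← Submodule.Quotient.mk_add,
      LinearMap.zero_apply, Submodule.Quotient.mk_eq_zero]
    have h1 := congrArg (fun B => B.mulVec y) hrelO
    simp only [Matrix.add_mulVec, Matrix.sub_mulVec, Matrix.zero_mulVec, ← Matrix.mulVec_mulVec,
      Matrix.natCast_mulVec] at h1
    have h2 : (A σ).mulVec ((A σ).mulVec y) - χ (CuspForm.heckeAlgebra.T hℓ hℓN hℓS) • (A σ).mulVec y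
        + (ℓ : O) • y = ((D.T ℓ).map (Int.castRingHom O)).mulVec ((A σ).mulVec y)
          - χ (CuspForm.heckeAlgebra.T hℓ hℓN hℓS) • (A σ).mulVec y := by
      rw [← sub_eq_zero, ← h1]
      abel
    rw [h2, mem_lat, map_sub, emb_mulVec, map_smul,
      algebra_compatible_smul (FractionRing O) (χ (CuspForm.heckeAlgebra.T hℓ hℓN hℓS))]
    apply Submodule.subset_span
    refine ⟨x, emb D.r O ((A σ).mulVec y), ?_⟩
    have e3 : ((D.T ℓ).map (Int.castRingHom O)).map (algebraMap O (FractionRing O)) =
        (Φ x).map (Int.castRingHom (FractionRing O)) := by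
      rw [hx1]
      ext i j; simp
    have e4 : θ x = algebraMap O (FractionRing O) (χ (CuspForm.heckeAlgebra.T hℓ hℓN hℓS)) := by
      simp [θ, hx2]
    rw [e3, e4]

end Fermat.Agent.GAL
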