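import Fermat.Agent.GAL.ALG.Defs

set_option autoImplicit false

namespace Fermat.Agent.GAL

/-- The ring homomorphism `ℤ/k → R` for a ring `R` in which `k = 0`. -/
noncomputable def zmodToRing (k : ℕ) (R : Type*) [CommRing R] (h : (k : R) = 0) : ZMod k →+* R :=
  (Ideal.Quotient.lift (Ideal.span {(k : ℤ)}) (Int.castRingHom R) (by
    intro a ha
    obtain ⟨b, rfl⟩ := Ideal.mem_span_singleton.mp ha
    simp [h])).comp (Int.quotientSpanNatEquivZMod k).symm.toRingHom

/-- A complete local ring in which `p` is not a unit receives a ring homomorphism from `ℤ_p`. -/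
theorem exists_padicInt_ringHom (p : ℕ) [Fact p.Prime] (O : Type) [CommRing O] [IsLocalRing O]
    [IsAdicComplete (IsLocalRing.maximalIdeal O) O]
    (hp : (p : O) ∈ IsLocalRing.maximalIdeal O) : Nonempty (ℤ_[p] →+* O) := by
  have h0 : ∀ n : ℕ, ((p ^ n : ℕ) : O ⧸ IsLocalRing.maximalIdeal O ^ n) = 0 := by
    intro n
    have : ((p ^ n : ℕ) : O ⧸ IsLocalRing.maximalIdeal O ^ n) =
        Ideal.Quotient.mk (IsLocalRing.maximalIdeal O ^ n) ((p : O) ^ n) := by
      push_cast
      simp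
    rw [this, Ideal.Quotient.eq_zero_iff_mem]
    exact Ideal.pow_mem_pow hp n
  let f : (n : ℕ) → ℤ_[p] →+* O ⧸ IsLocalRing.maximalIdeal O ^ n := fun n =>
    (zmodToRing (p ^ n) _ (h0 n)).comp (PadicInt.toZModPow n)
  refine ⟨IsAdicComplete.liftRingHom (IsLocalRing.maximalIdeal O) f ?_⟩
  intro m n hle
  have h1 : (Ideal.Quotient.factorPow (IsLocalRing.maximalIdeal O) hle).comp
      (zmodToRing (p ^ n) _ (h0 n)) =
      (zmodToRing (p ^ m) _ (h0 m)).comp (ZMod.castHom (pow_dvd_pow p hle) (ZMod (p ^ m))) :=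
    RingHom.ext_zmod _ _
  show (Ideal.Quotient.factorPow (IsLocalRing.maximalIdeal O) hle).comp
      ((zmodToRing (p ^ n) _ (h0 n)).comp (PadicInt.toZModPow n)) =
      (zmodToRing (p ^ m) _ (h0 m)).comp (PadicInt.toZModPow m)
  rw [← RingHom.comp_assoc, h1, RingHom.comp_assoc, PadicInt.zmod_cast_comp_toZModPow m n hle]

end Fermat.Agent.GAL
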