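import Mathlib
import Fermat.Agent.GAL.RepAlg

set_option autoImplicit false

namespace Fermat.Agent.GAL

open Polynomial

namespace RankTwoAux

open RepAlg

variable {𝒪 : Type} [CommRing 𝒪] [IsDomain 𝒪] [IsPrincipalIdealRing 𝒪] [CharZero 𝒪]
variable {G : Type} [Group G]

/-- The conclusion, with the semisimplicity clause. -/
def Concl' {Λ : Type} [AddCommGroup Λ] [Module 𝒪 Λ] (r : G →* Module.End 𝒪 Λ) (ε : G →* 𝒪ˣ)
    (t : G → 𝒪) : Prop :=
  ∃ (V : Type) (_ : AddCommGroup V) (_ : Module 𝒪 V) (_ : Module.Free 𝒪 V)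
    (_ : Module.Finite 𝒪 V) (ρ : G →* Module.End 𝒪 V), Module.finrank 𝒪 V = 2 ∧
    (∀ g, LinearMap.charpoly (ρ g) = X ^ 2 - C (t g) * X + C (ε g : 𝒪)) ∧
    (∀ (I : Ideal 𝒪) (g : G), (∀ v, r g v - v ∈ I • (⊤ : Submodule 𝒪 Λ)) → (ε g : 𝒪) - 1 ∈ I →
      ∀ v, ρ g v - v ∈ I • (⊤ : Submodule 𝒪 V)) ∧
    (∀ h : G, (∀ g, t (g * h) = t g) → ε h = 1 → ρ h = 1)

theorem main (n : ℕ) : ∀ (Λ : Type) [AddCommGroup Λ] [Module 𝒪 Λ] [Module.Free 𝒪 Λ]
    [Module.Finite 𝒪 Λ] [Nontrivial Λ] (r : G →* Module.End 𝒪 Λ) (ε : G →* 𝒪ˣ) (c : G)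
    (_ : c * c = 1) (_ : ε c = -1) (t : G → 𝒪)
    (_ : ∀ g, r g + (ε g : 𝒪) • r g⁻¹ = t g • (1 : Module.End 𝒪 Λ)),
    Module.finrank 𝒪 Λ = n → Concl' r ε t := by
  induction n using Nat.strong_induction_on with
  | _ n ih =>
  intro Λ _ _ _ _ _ r ε c hc hεc t ht hn
  by_cases H : ∀ h : G, (∀ g, t (g * h) = t g) → ε h = 1 → r h = 1
  · obtain ⟨V, i1, i2, i3, i4, ρ, hV, hchar, hcont⟩ :=
      RepAlg.exists_rank_two (r := r) (ε := ε) hc hεc (fun g => ⟨t g, ht g⟩)
    refine ⟨V, i1, i2, i3, i4, ρ, hV, fun g => hchar g (t g) (ht g), hcont, fun h h1 h2 => ?_⟩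
    have h3 := H h h1 h2
    refine LinearMap.ext fun v => ?_
    have h4 := hcont ⊥ h (fun v => by rw [h3]; simp) (by rw [h2]; simp) v
    rw [Submodule.bot_smul, Submodule.mem_bot, sub_eq_zero] at h4
    rw [h4, Module.End.one_apply]
  · push Not at H
    obtain ⟨h, hN, hεh, hne⟩ := H
    set Y : Module.End 𝒪 Λ := r h - 1 with hY
    have hinv : r h⁻¹ - 1 = -Y := by
      have e1 := ht h
      have e2 := ht 1
      have e3 : t h = t 1 := by simpa using hN 1
      rw [hεh, Units.val_one, one_smul, e3, ← e2] at e1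
      simp only [map_one, inv_one, Units.val_one, one_smul] at e1
      rw [hY]
      have e4 : r h⁻¹ = (1 + 1) - r h := by rw [← e1]; abel
      rw [e4]; abel
    have hYY : Y * Y = 0 := by
      have e1 : (r h - 1) * (r h⁻¹ - 1) = -(r h - 1) - (r h⁻¹ - 1) := by
        have : r h * r h⁻¹ = 1 := by rw [← map_mul, mul_inv_cancel, map_one]
        rw [sub_mul, mul_sub, this]
        simp only [mul_one, one_mul]
        abel
      rw [hinv, ← hY] at e1
      have e2 : Y * -Y = 0 := by rw [e1]; abel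
      rw [mul_neg, neg_eq_zero] at e2
      exact e2
    have hcomm : ∀ g, r g * Y + Y * r g = t g • Y := by
      intro g
      have e1 := ht (g * h)
      have e2 := ht g
      rw [hN g, map_mul ε, hεh, mul_one, mul_inv_rev, map_mul, map_mul] at e1
      have e3 : r h⁻¹ = 1 - Y := by
        have : r h⁻¹ = (r h⁻¹ - 1) + 1 := by abel
        rw [this, hinv]; abel
      have e4 : r h = 1 + Y := by rw [hY]; abel
      rw [e3, e4] at e1
      have e5 : r g * Y = Y * ((ε g : 𝒪) • r g⁻¹) := by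
        have : r g * (1 + Y) + (ε g : 𝒪) • ((1 - Y) * r g⁻¹)
            = (r g + (ε g : 𝒪) • r g⁻¹) + (r g * Y - Y * ((ε g : 𝒪) • r g⁻¹)) := by
          rw [mul_add, mul_one, sub_mul, one_mul, smul_sub, mul_smul_comm]
          abel
        rw [this, e2] at e1
        have e6 : r g * Y - Y * ((ε g : 𝒪) • r g⁻¹) = 0 := by
          have := e1
          rwa [add_eq_left] at this
        exact sub_eq_zero.mp e6
      have e7 : (ε g : 𝒪) • r g⁻¹ = t g • (1 : Module.End 𝒪 Λ) - r g := by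
        rw [← e2]; abel
      rw [e5, e7, mul_sub, mul_smul_comm, mul_one]
      abel
    -- the new lattice
    set K : Submodule 𝒪 Λ := LinearMap.ker Y with hK
    have hKst : ∀ g, ∀ x ∈ K, r g x ∈ K := by
      intro g x hx
      rw [hK, LinearMap.mem_ker] at hx ⊢
      have e := LinearMap.congr_fun (hcomm g) x
      simp only [LinearMap.add_apply, Module.End.mul_apply, LinearMap.smul_apply, hx, map_zero,
        smul_zero, zero_add] at e
      exact e
    have hS : ∀ g, ∀ x ∈ sat K, r g x ∈ sat K := fun g => sat_stable (r g) (hKst g)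
    have hY0 : Y ≠ 0 := by
      intro h0
      apply hne
      rw [hY, sub_eq_zero] at h0
      exact h0
    obtain ⟨x, hx⟩ : ∃ x, Y x ≠ 0 := by
      by_contra hcon
      push Not at hcon
      exact hY0 (LinearMap.ext hcon)
    have hYx : Y x ∈ K := by
      rw [hK, LinearMap.mem_ker, ← Module.End.mul_apply, hYY, LinearMap.zero_apply]
    have : Nontrivial (sat K) :=
      ⟨⟨⟨Y x, le_sat K hYx⟩, 0, fun h0 => hx (congrArg Subtype.val h0)⟩⟩
    have hlt : Module.finrank 𝒪 (sat K) < n := by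
      rw [finrank_sat, ← hn, ← Submodule.finrank_quotient_add_finrank (LinearMap.ker Y),
        Y.quotKerEquivRange.finrank_eq]
      have : Nontrivial (LinearMap.range Y) :=
        ⟨⟨⟨Y x, LinearMap.mem_range_self Y x⟩, 0, fun h0 => hx (congrArg Subtype.val h0)⟩⟩
      have : 0 < Module.finrank 𝒪 (LinearMap.range Y) := Module.finrank_pos
      rw [hK]
      omega
    obtain ⟨V, i1, i2, i3, i4, ρ, hV, hchar, hcont, hss⟩ :=
      ih _ hlt (sat K) (restr r (sat K) hS) ε c hc hεc t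
        (fun g => restr_scal r ε hS (ht g)) rfl
    refine ⟨V, i1, i2, i3, i4, ρ, hV, hchar, fun I g hg hε => ?_, hss⟩
    refine hcont I g (fun v => ?_) hε
    exact mem_smul_top_sat K I _ (hg v)

end RankTwoAux

/-- **Rank two representation from the scalar property** (complex conjugation trick, helper64).
The last clause says that `ρ` is "semisimple": its kernel is the kernel of the pseudo-character
`t`. -/
theorem exists_rank_two {G : Type} [Group G] {O : Type} [CommRing O] [IsDomain O]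
    [IsDiscreteValuationRing O] [CharZero O]
    {Λ : Type} [AddCommGroup Λ] [Module O Λ] [Module.Free O Λ] [Module.Finite O Λ] [Nontrivial Λ]
    (r : G →* Module.End O Λ) (ε : G →* Oˣ) (c : G) (hc : c * c = 1) (hεc : ε c = -1)
    (t : G → O) (ht : ∀ g, r g + ((ε g : Oˣ) : O) • r g⁻¹ = t g • 1) :
    ∃ (V : Type) (_ : AddCommGroup V) (_ : Module O V) (_ : Module.Free O V)
      (_ : Module.Finite O V) (ρ : G →* Module.End O V),
      Module.finrank O V = 2 ∧
      (∀ g, LinearMap.charpoly (ρ g) = X ^ 2 - C (t g) * X + C ((ε g : Oˣ) : O)) ∧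
      (∀ (n : ℕ) (g : G),
        (∀ v : Λ, r g v - v ∈ (IsLocalRing.maximalIdeal O ^ n) • (⊤ : Submodule O Λ)) →
        ((ε g : Oˣ) : O) - 1 ∈ IsLocalRing.maximalIdeal O ^ n →
        ∀ v : V, ρ g v - v ∈ (IsLocalRing.maximalIdeal O ^ n) • (⊤ : Submodule O V)) ∧
      (∀ h : G, (∀ g, t (g * h) = t g) → ε h = 1 → ρ h = 1) := by
  obtain ⟨V, i1, i2, i3, i4, ρ, hV, hchar, hcont, hss⟩ :=
    RankTwoAux.main (𝒪 := O) (G := G) _ Λ r ε c hc hεc t ht rfl
  exact ⟨V, i1, i2, i3, i4, ρ, hV, hchar, fun n g => hcont _ g, hss⟩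

end Fermat.Agent.GAL
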