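import Fermat.Agent.GAL.ALG.Scalar

set_option autoImplicit false

namespace Fermat.Agent.GAL

/-- linear maps preserve `I • ⊤`. -/
theorem scalarUnique_map_mem_smul_top {O M M' : Type*} [CommRing O] [AddCommGroup M] [Module O M]
    [AddCommGroup M'] [Module O M'] (I : Ideal O) (f : M →ₗ[O] M') {x : M}
    (hx : x ∈ I • (⊤ : Submodule O M)) : f x ∈ I • (⊤ : Submodule O M') := by
  have h : f x ∈ (I • (⊤ : Submodule O M)).map f := Submodule.mem_map_of_mem hx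
  rw [Submodule.map_smul''] at h
  exact Submodule.smul_mono le_rfl le_top h

/-- a scalar acting on a nontrivial free module is determined by its action. -/
theorem scalarUnique_eq_of_smul_eq {O M : Type*} [CommRing O] [AddCommGroup M] [Module O M]
    [Module.Free O M] [Nontrivial M] {t t' : O} (h : ∀ v : M, t • v = t' • v) : t = t' := by
  let b := Module.Free.chooseBasis O M
  obtain ⟨i⟩ := b.index_nonempty
  have h1 := congrArg (fun v => b.repr v i) (h (b i))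
  simpa using h1

/-- the product of two actions. -/
noncomputable def scalarUniqueProd {G O Λ₁ Λ₂ : Type*} [Monoid G] [CommRing O]
    [AddCommGroup Λ₁] [Module O Λ₁] [AddCommGroup Λ₂] [Module O Λ₂]
    (r₁ : G →* Module.End O Λ₁) (r₂ : G →* Module.End O Λ₂) : G →* Module.End O (Λ₁ × Λ₂) where
  toFun σ := LinearMap.prodMap (r₁ σ) (r₂ σ)
  map_one' := by
    rw [map_one, map_one]
    exact LinearMap.prodMap_one
  map_mul' σ τ := by
    rw [map_mul, map_mul]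
    exact (LinearMap.prodMap_mul _ _ _ _).symm

theorem scalarUniqueProd_apply {G O Λ₁ Λ₂ : Type*} [Monoid G] [CommRing O]
    [AddCommGroup Λ₁] [Module O Λ₁] [AddCommGroup Λ₂] [Module O Λ₂]
    (r₁ : G →* Module.End O Λ₁) (r₂ : G →* Module.End O Λ₂) (σ : G) (v : Λ₁ × Λ₂) :
    scalarUniqueProd r₁ r₂ σ v = (r₁ σ v.1, r₂ σ v.2) := rfl

/-- Two lattices with the same Frobenius relations have the same scalar function `t`
(apply `exists_scalar` to the product lattice). -/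
theorem scalar_unique (hFD : FrobeniusDensity) {O : Type} [CommRing O] [IsLocalRing O]
    [IsHausdorff (IsLocalRing.maximalIdeal O) O]
    {Λ₁ : Type} [AddCommGroup Λ₁] [Module O Λ₁] [Module.Free O Λ₁] [Module.Finite O Λ₁]
    [Nontrivial Λ₁]
    {Λ₂ : Type} [AddCommGroup Λ₂] [Module O Λ₂] [Module.Free O Λ₂] [Module.Finite O Λ₂]
    [Nontrivial Λ₂]
    (r₁ : GQ →* Module.End O Λ₁) (hr₁ : GaloisActionIsAdicContinuous O r₁)
    (r₂ : GQ →* Module.End O Λ₂) (hr₂ : GaloisActionIsAdicContinuous O r₂)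
    (ε : GQ →* Oˣ)
    (hε : ∀ n : ℕ, ∃ F : IntermediateField ℚ (AlgebraicClosure ℚ), FiniteDimensional ℚ F ∧
      ∀ σ : GQ, (∀ x ∈ F, σ x = x) → ((ε σ : Oˣ) : O) - 1 ∈ IsLocalRing.maximalIdeal O ^ n)
    (B : Finset ℕ) (a : ℕ → O)
    (hεF : ∀ ℓ : ℕ, ℓ.Prime → ℓ ∉ B → ∀ A : ValuationSubring (AlgebraicClosure ℚ),
      A.LiesOverPrime ℓ → ∀ σ : GQ, A.IsFrobeniusAt σ ℓ → ((ε σ : Oˣ) : O) = (ℓ : O))
    (hES₁ : ∀ ℓ : ℕ, ℓ.Prime → ℓ ∉ B → ∀ A : ValuationSubring (AlgebraicClosure ℚ),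
      A.LiesOverPrime ℓ → ∀ σ : GQ, A.IsFrobeniusAt σ ℓ →
        r₁ σ * r₁ σ - a ℓ • r₁ σ + (ℓ : O) • (1 : Module.End O Λ₁) = 0)
    (hES₂ : ∀ ℓ : ℕ, ℓ.Prime → ℓ ∉ B → ∀ A : ValuationSubring (AlgebraicClosure ℚ),
      A.LiesOverPrime ℓ → ∀ σ : GQ, A.IsFrobeniusAt σ ℓ →
        r₂ σ * r₂ σ - a ℓ • r₂ σ + (ℓ : O) • (1 : Module.End O Λ₂) = 0)
    (g : GQ) (t₁ t₂ : O)
    (h₁ : r₁ g + ((ε g : Oˣ) : O) • r₁ g⁻¹ = t₁ • 1)
    (h₂ : r₂ g + ((ε g : Oˣ) : O) • r₂ g⁻¹ = t₂ • 1) : t₁ = t₂ := by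
  have hr : GaloisActionIsAdicContinuous O (scalarUniqueProd r₁ r₂) := by
    intro n
    obtain ⟨L₁, hL₁, hc₁⟩ := hr₁ n
    obtain ⟨L₂, hL₂, hc₂⟩ := hr₂ n
    refine ⟨L₁ ⊔ L₂, IntermediateField.finiteDimensional_sup L₁ L₂, fun σ hσ v => ?_⟩
    have e : scalarUniqueProd r₁ r₂ σ v - v =
        LinearMap.inl O Λ₁ Λ₂ (r₁ σ v.1 - v.1) + LinearMap.inr O Λ₁ Λ₂ (r₂ σ v.2 - v.2) := by
      rw [scalarUniqueProd_apply]
      ext <;> simp
    rw [e]
    refine Submodule.add_mem _ (scalarUnique_map_mem_smul_top _ _ ?_)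
      (scalarUnique_map_mem_smul_top _ _ ?_)
    · exact hc₁ σ (fun x hx => hσ x ((le_sup_left : L₁ ≤ L₁ ⊔ L₂) hx)) v.1
    · exact hc₂ σ (fun x hx => hσ x ((le_sup_right : L₂ ≤ L₁ ⊔ L₂) hx)) v.2
  have hES : ∀ ℓ : ℕ, ℓ.Prime → ℓ ∉ B → ∀ A : ValuationSubring (AlgebraicClosure ℚ),
      A.LiesOverPrime ℓ → ∀ σ : GQ, A.IsFrobeniusAt σ ℓ →
        scalarUniqueProd r₁ r₂ σ * scalarUniqueProd r₁ r₂ σ - a ℓ • scalarUniqueProd r₁ r₂ σ
          + (ℓ : O) • (1 : Module.End O (Λ₁ × Λ₂)) = 0 := by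
    intro ℓ hℓ hℓB A hA σ hσ
    refine LinearMap.ext fun v => Prod.ext ?_ ?_
    · have := LinearMap.congr_fun (hES₁ ℓ hℓ hℓB A hA σ hσ) v.1
      simpa [scalarUniqueProd_apply] using this
    · have := LinearMap.congr_fun (hES₂ ℓ hℓ hℓB A hA σ hσ) v.2
      simpa [scalarUniqueProd_apply] using this
  obtain ⟨t, ht⟩ := exists_scalar hFD (scalarUniqueProd r₁ r₂) hr ε hε B a hεF hES g
  have e₁ : t₁ = t := by
    refine scalarUnique_eq_of_smul_eq (M := Λ₁) fun v => ?_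
    have a1 := LinearMap.congr_fun h₁ v
    have a2 := congrArg Prod.fst (LinearMap.congr_fun ht (v, 0))
    simp only [LinearMap.add_apply, LinearMap.smul_apply, scalarUniqueProd_apply, Prod.fst_add,
      Prod.smul_fst, Module.End.one_apply] at a1 a2
    rw [← a1, a2]
  have e₂ : t₂ = t := by
    refine scalarUnique_eq_of_smul_eq (M := Λ₂) fun v => ?_
    have a1 := LinearMap.congr_fun h₂ v
    have a2 := congrArg Prod.snd (LinearMap.congr_fun ht (0, v))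
    simp only [LinearMap.add_apply, LinearMap.smul_apply, scalarUniqueProd_apply, Prod.snd_add,
      Prod.smul_snd, Module.End.one_apply] at a1 a2
    rw [← a1, a2]
  rw [e₁, e₂]

end Fermat.Agent.GAL
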