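import Fermat.Statements.S30
import Fermat.Agent.GAL.ALG.PadicMap
import Fermat.Agent.GAL.ALG.CycloO
import Fermat.Agent.GAL.ALG.EigenLattice
import Fermat.Agent.GAL.ALG.ScalarUnique
import Fermat.Agent.GAL.ALG.RankTwo

/-!
# `GeomInput` and `FrobeniusDensity` imply S30
-/

set_option autoImplicit false

namespace Fermat.Agent.GAL

open Polynomial CuspForm

open Classical in
/-- the eigenvalue function of a character of the Hecke algebra -/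
noncomputable def eigA {N : ℕ} [NeZero N] (S : Set ℕ) {O : Type} [CommRing O]
    (χ : heckeAlgebra N 2 S →+* O) (ℓ : ℕ) : O :=
  if h : ℓ.Prime ∧ ¬ ℓ ∣ N ∧ ℓ ∉ S then χ (heckeAlgebra.T h.1 h.2.1 h.2.2) else 0

theorem eigA_eq {N : ℕ} [NeZero N] (S : Set ℕ) {O : Type} [CommRing O]
    (χ : heckeAlgebra N 2 S →+* O) {ℓ : ℕ} (hℓ : ℓ.Prime) (hℓN : ¬ ℓ ∣ N) (hℓS : ℓ ∉ S) :
    eigA S χ ℓ = χ (heckeAlgebra.T hℓ hℓN hℓS) := by
  rw [eigA, dif_pos ⟨hℓ, hℓN, hℓS⟩]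

/-- The eigen-lattice attached to a datum and a character, with its properties at primes. -/
theorem exists_lattice_of_datum {N M p : ℕ} [NeZero N] [Fact p.Prime] (D : ESDatumAt N M p)
    (S : Set ℕ) (hpS : p ∈ S) (hNS : ∀ q : ℕ, q.Prime → q ∣ N → q ∈ S)
    (O : Type) [CommRing O] [IsDomain O] [IsPrincipalIdealRing O] [IsLocalRing O]
    (hp : (p : O) ∈ IsLocalRing.maximalIdeal O) (ι : ℤ_[p] →+* O)
    (χ : heckeAlgebra N 2 S →+* O) :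
    ∃ (Λ : Type) (_ : AddCommGroup Λ) (_ : Module O Λ) (_ : Module.Free O Λ)
      (_ : Module.Finite O Λ) (_ : Nontrivial Λ) (r : GQ →* Module.End O Λ),
      GaloisActionIsAdicContinuous O r ∧
      (∀ ℓ : ℕ, ℓ.Prime → ¬ ℓ ∣ M * p → ∀ A : ValuationSubring (AlgebraicClosure ℚ),
        A.LiesOverPrime ℓ → ∀ σ ∈ A.inertiaSubgroupIn ℚ, r σ = 1) ∧
      (∀ ℓ : ℕ, ℓ.Prime → ℓ ∉ S → ¬ ℓ ∣ M → ∀ A : ValuationSubring (AlgebraicClosure ℚ),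
        A.LiesOverPrime ℓ → ∀ σ : GQ, A.IsFrobeniusAt σ ℓ →
          r σ * r σ - eigA S χ ℓ • r σ + (ℓ : O) • (1 : Module.End O Λ) = 0) := by
  obtain ⟨Λ, i1, i2, i3, i4, i5, r, hc, h1, h2⟩ := exists_eigenLattice D S O hp ι χ
  refine ⟨Λ, i1, i2, i3, i4, i5, r, hc, ?_, ?_⟩
  · intro ℓ hℓ hℓM A hA σ hσ
    exact h1 σ (D.ρ_unram ℓ hℓ hℓM A hA σ hσ)
  · intro ℓ hℓ hℓS hℓM A hA σ hσ
    have hℓN : ¬ ℓ ∣ N := fun h => hℓS (hNS ℓ hℓ h)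
    have hℓp : ¬ ℓ ∣ M * p := by
      intro h
      rcases (Nat.Prime.dvd_mul hℓ).1 h with h | h
      · exact hℓM h
      · rw [(Nat.prime_dvd_prime_iff_eq hℓ (Fact.out : p.Prime)).1 h] at hℓS
        exact hℓS hpS
    rw [eigA_eq S χ hℓ hℓN hℓS]
    exact h2 ℓ hℓ hℓN hℓS hℓM σ (D.ρ_ES ℓ hℓ hℓp A hA σ hσ)

/-- The core of S30: the representation lives over the given ring `O` itself. -/
theorem S30_core (hG : GeomInput) (hFD : FrobeniusDensity)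
    (p : ℕ) [Fact p.Prime] (N : ℕ) [NeZero N] (S : Finset ℕ)
    (hpS : p ∈ S) (hNS : ∀ q : ℕ, q.Prime → q ∣ N → q ∈ S)
    (O : Type) [CommRing O] [IsDomain O] [IsDiscreteValuationRing O]
    [IsAdicComplete (IsLocalRing.maximalIdeal O) O]
    [CharZero O] (hpO : (p : O) ∈ IsLocalRing.maximalIdeal O)
    (χ : CuspForm.heckeAlgebra N 2 (↑S : Set ℕ) →+* O) :
    ∃ ρ : GaloisRepAdic O,
      (∀ (ℓ : ℕ) (hℓ : ℓ.Prime) (hℓN : ¬ ℓ ∣ N) (hℓS : ℓ ∉ (↑S : Set ℕ)),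
        ∀ A : ValuationSubring (AlgebraicClosure ℚ), A.LiesOverPrime ℓ →
          ∀ σ : AlgebraicClosure ℚ ≃ₐ[ℚ] AlgebraicClosure ℚ, A.IsFrobeniusAt σ ℓ →
            LinearMap.charpoly (ρ.ρ σ) =
              X ^ 2 - C (χ (CuspForm.heckeAlgebra.T hℓ hℓN hℓS)) * X + C ((ℓ : O))) ∧
      (∀ q : ℕ, q.Prime → ¬ q ∣ N → q ≠ p → ρ.IsUnramifiedAt q) := by
  obtain ⟨ι⟩ := exists_padicInt_ringHom p O hpO
  have hpp : p.Prime := Fact.out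
  set ε : GQ →* Oˣ := cycloO ι with hε
  set a : ℕ → O := eigA (↑S : Set ℕ) χ with ha
  have hεc := cycloO_cont ι hpO
  -- a lattice for every good prime
  have key : ∀ q : ℕ, q.Prime → ¬ q ∣ N * p → ∃ (M : ℕ) (_ : ¬ q ∣ M)
      (Λ : Type) (_ : AddCommGroup Λ) (_ : Module O Λ) (_ : Module.Free O Λ)
      (_ : Module.Finite O Λ) (_ : Nontrivial Λ) (r : GQ →* Module.End O Λ),
      GaloisActionIsAdicContinuous O r ∧
      (∀ ℓ : ℕ, ℓ.Prime → ¬ ℓ ∣ M * p → ∀ A : ValuationSubring (AlgebraicClosure ℚ),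
        A.LiesOverPrime ℓ → ∀ σ ∈ A.inertiaSubgroupIn ℚ, r σ = 1) ∧
      (∀ ℓ : ℕ, ℓ.Prime → ℓ ∉ (↑S : Set ℕ) → ¬ ℓ ∣ M →
        ∀ A : ValuationSubring (AlgebraicClosure ℚ),
        A.LiesOverPrime ℓ → ∀ σ : GQ, A.IsFrobeniusAt σ ℓ →
          r σ * r σ - a ℓ • r σ + (ℓ : O) • (1 : Module.End O Λ) = 0) := by
    intro q hq hqN
    obtain ⟨M, hqM, ⟨D⟩⟩ := hG N p q hq hqN
    exact ⟨M, hqM, exists_lattice_of_datum D (↑S : Set ℕ) hpS hNS O hpO ι χ⟩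
  -- the base lattice
  obtain ⟨q0, hq0, hq0p⟩ := Nat.exists_infinite_primes (N * p + 1)
  have hNp : N * p ≠ 0 := Nat.mul_ne_zero (NeZero.ne N) hpp.ne_zero
  have hq0N : ¬ q0 ∣ N * p := fun h => by
    have := Nat.le_of_dvd (Nat.pos_of_ne_zero hNp) h
    omega
  obtain ⟨M0, hqM0, Λ0, _, _, _, _, _, r0, hc0, hu0, hES0⟩ := key q0 hq0p hq0N
  have hM0 : M0 ≠ 0 := fun h => hqM0 (h ▸ dvd_zero _)
  -- Frobenius values of ε
  have hεF : ∀ (B : Finset ℕ), S ⊆ B → ∀ ℓ : ℕ, ℓ.Prime → ℓ ∉ B →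
      ∀ A : ValuationSubring (AlgebraicClosure ℚ),
      A.LiesOverPrime ℓ → ∀ σ : GQ, A.IsFrobeniusAt σ ℓ → ((ε σ : Oˣ) : O) = (ℓ : O) := by
    intro B hB ℓ hℓ hℓB A hA σ hσ
    exact cycloO_frobenius ι hℓ (fun h => hℓB (hB (h ▸ hpS))) A hA σ hσ
  have ht0 : ∀ g : GQ, ∃ t : O, r0 g + ((ε g : Oˣ) : O) • r0 g⁻¹ = t • 1 := by
    intro g
    refine exists_scalar hFD r0 hc0 ε hεc (S ∪ M0.primeFactors) a
      (hεF _ Finset.subset_union_left) ?_ g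
    intro ℓ hℓ hℓB A hA σ hσ
    rw [Finset.mem_union, not_or] at hℓB
    refine hES0 ℓ hℓ (by simpa using hℓB.1) (fun h => hℓB.2 ?_) A hA σ hσ
    exact Nat.mem_primeFactors.2 ⟨hℓ, h, hM0⟩
  choose t0 ht0 using ht0
  -- comparison with the lattice at another prime
  have cmp : ∀ q : ℕ, q.Prime → ¬ q ∣ N * p → ∃
      (Λ : Type) (_ : AddCommGroup Λ) (_ : Module O Λ) (r : GQ →* Module.End O Λ),
      (∀ A : ValuationSubring (AlgebraicClosure ℚ),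
        A.LiesOverPrime q → ∀ σ ∈ A.inertiaSubgroupIn ℚ, r σ = 1) ∧
      (q ∉ (↑S : Set ℕ) → ∀ A : ValuationSubring (AlgebraicClosure ℚ),
        A.LiesOverPrime q → ∀ σ : GQ, A.IsFrobeniusAt σ q →
          r σ * r σ - a q • r σ + (q : O) • (1 : Module.End O Λ) = 0) ∧
      (∀ (g : GQ) (t : O), r g + ((ε g : Oˣ) : O) • r g⁻¹ = t • 1 → t0 g = t) ∧
      (∀ g : GQ, ∃ t : O, r g + ((ε g : Oˣ) : O) • r g⁻¹ = t • 1) := by
    intro q hq hqN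
    obtain ⟨M, hqM, Λ, _, _, _, _, _, r, hc, hu, hES⟩ := key q hq hqN
    have hM : M ≠ 0 := fun h => hqM (h ▸ dvd_zero _)
    have hqp : ¬ q ∣ M * p := by
      intro h
      rcases (Nat.Prime.dvd_mul hq).1 h with h | h
      · exact hqM h
      · exact hqN (Dvd.dvd.mul_left h N)
    have hB0 : ∀ ℓ : ℕ, ℓ.Prime → ℓ ∉ S ∪ M0.primeFactors ∪ M.primeFactors →
        ℓ ∉ (↑S : Set ℕ) ∧ ¬ ℓ ∣ M0 ∧ ¬ ℓ ∣ M := by
      intro ℓ hℓ hℓB
      rw [Finset.mem_union, Finset.mem_union, not_or, not_or] at hℓB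
      exact ⟨by simpa using hℓB.1.1, fun h => hℓB.1.2 (Nat.mem_primeFactors.2 ⟨hℓ, h, hM0⟩),
        fun h => hℓB.2 (Nat.mem_primeFactors.2 ⟨hℓ, h, hM⟩)⟩
    refine ⟨Λ, inferInstance, inferInstance, r, hu q hq hqp, fun hqS => hES q hq hqS hqM, ?_, ?_⟩
    · intro g t ht
      refine scalar_unique hFD r0 hc0 r hc ε hεc (S ∪ M0.primeFactors ∪ M.primeFactors) a
        (hεF _ (Finset.subset_union_left.trans Finset.subset_union_left)) ?_ ?_ g (t0 g) t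
        (ht0 g) ht
      · intro ℓ hℓ hℓB A hA σ hσ
        obtain ⟨h1, h2, h3⟩ := hB0 ℓ hℓ hℓB
        exact hES0 ℓ hℓ h1 h2 A hA σ hσ
      · intro ℓ hℓ hℓB A hA σ hσ
        obtain ⟨h1, h2, h3⟩ := hB0 ℓ hℓ hℓB
        exact hES ℓ hℓ h1 h3 A hA σ hσ
    · intro g
      refine exists_scalar hFD r hc ε hεc (S ∪ M.primeFactors) a
        (hεF _ Finset.subset_union_left) ?_ g
      intro ℓ hℓ hℓB A hA σ hσ
      rw [Finset.mem_union, not_or] at hℓB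
      refine hES ℓ hℓ (by simpa using hℓB.1) (fun h => hℓB.2 ?_) A hA σ hσ
      exact Nat.mem_primeFactors.2 ⟨hℓ, h, hM⟩
  -- the rank two representation
  obtain ⟨V, _, _, _, _, ρ, hrk, hchar, hcont, hker⟩ :=
    exists_rank_two r0 ε complexConjugation complexConjugation_mul_self
      (cycloO_complexConjugation ι) t0 ht0
  have hρc : GaloisActionIsAdicContinuous O ρ := by
    intro n
    obtain ⟨L, hL, h1⟩ := hc0 n
    obtain ⟨F, hF, h2⟩ := hεc n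
    refine ⟨L ⊔ F, IntermediateField.finiteDimensional_sup L F, fun σ hσ v => ?_⟩
    exact hcont n σ (h1 σ fun x hx => hσ x ((le_sup_left : L ≤ L ⊔ F) hx))
      (h2 σ fun x hx => hσ x ((le_sup_right : F ≤ L ⊔ F) hx)) v
  refine ⟨⟨V, hrk, ρ, hρc⟩, ?_, ?_⟩
  · intro ℓ hℓ hℓN hℓS A hA σ hσ
    have hℓp : ℓ ≠ p := fun h => hℓS (h ▸ hpS)
    have hℓNp : ¬ ℓ ∣ N * p := by
      intro h
      rcases (Nat.Prime.dvd_mul hℓ).1 h with h | h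
      · exact hℓN h
      · exact hℓp ((Nat.prime_dvd_prime_iff_eq hℓ hpp).1 h)
    obtain ⟨Λ, _, _, r, -, hES, hcmp, -⟩ := cmp ℓ hℓ hℓNp
    have h1 := scalar_of_quadratic r σ _ _ (hES hℓS A hA σ hσ)
    rw [← cycloO_frobenius ι hℓ hℓp A hA σ hσ] at h1
    have h2 := hcmp σ _ h1
    show LinearMap.charpoly (ρ σ) = _
    rw [hchar σ, h2, ha, eigA_eq _ χ hℓ hℓN hℓS, hε, cycloO_frobenius ι hℓ hℓp A hA σ hσ]
  · intro q hq hqN hqp A hA σ hσ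
    have hqNp : ¬ q ∣ N * p := by
      intro h
      rcases (Nat.Prime.dvd_mul hq).1 h with h | h
      · exact hqN h
      · exact hqp ((Nat.prime_dvd_prime_iff_eq hq hpp).1 h)
    obtain ⟨Λ, _, _, r, hu, -, hcmp, hex⟩ := cmp q hq hqNp
    have hε1 : ε σ = 1 := cycloO_inertia ι hq hqp A hA σ hσ
    have hr1 : r σ = 1 := hu A hA σ hσ
    show ρ σ = 1
    refine hker σ (fun g => ?_) hε1
    obtain ⟨t, ht⟩ := hex g
    rw [hcmp g t ht]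
    refine hcmp (g * σ) t ?_
    have hr1' : r σ⁻¹ = 1 := by
      have : r σ⁻¹ * r σ = 1 := by rw [← map_mul, inv_mul_cancel, map_one]
      rwa [hr1, mul_one] at this
    rw [map_mul, map_mul, hε1, hr1, mul_one, mul_one, mul_inv_rev, map_mul, hr1', one_mul]
    exact ht

theorem S30_of (hG : GeomInput) (hFD : FrobeniusDensity) :
    ∀ (p : ℕ) [Fact p.Prime] (N : ℕ) [NeZero N] (S : Finset ℕ)
      (_hpS : p ∈ S) (_hNS : ∀ q : ℕ, q.Prime → q ∣ N → q ∈ S)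
      (𝒪' : Type) [CommRing 𝒪'] [IsDomain 𝒪'] [IsDiscreteValuationRing 𝒪']
      [IsAdicComplete (IsLocalRing.maximalIdeal 𝒪') 𝒪'] [Finite (IsLocalRing.ResidueField 𝒪')]
      [CharZero 𝒪'] (_hp𝒪' : (p : 𝒪') ∈ IsLocalRing.maximalIdeal 𝒪')
      (χ : CuspForm.heckeAlgebra N 2 (↑S : Set ℕ) →+* 𝒪'),
      ∃ (𝒪'' : Type) (_ : CommRing 𝒪'') (_ : IsDomain 𝒪'') (_ : IsDiscreteValuationRing 𝒪'')
        (_ : IsAdicComplete (IsLocalRing.maximalIdeal 𝒪'') 𝒪'')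
        (_ : Finite (IsLocalRing.ResidueField 𝒪'')) (_ : CharZero 𝒪'')
        (_ : Algebra 𝒪' 𝒪'') (_ : Module.Finite 𝒪' 𝒪'') (_ : IsLocalHom (algebraMap 𝒪' 𝒪'')),
      Function.Injective (algebraMap 𝒪' 𝒪'') ∧
      ∃ ρ : GaloisRepAdic 𝒪'',
        (∀ (ℓ : ℕ) (hℓ : ℓ.Prime) (hℓN : ¬ ℓ ∣ N) (hℓS : ℓ ∉ (↑S : Set ℕ)),
          ∀ A : ValuationSubring (AlgebraicClosure ℚ), A.LiesOverPrime ℓ →
            ∀ σ : AlgebraicClosure ℚ ≃ₐ[ℚ] AlgebraicClosure ℚ, A.IsFrobeniusAt σ ℓ →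
              LinearMap.charpoly (ρ.ρ σ) =
                X ^ 2 - C (algebraMap 𝒪' 𝒪'' (χ (CuspForm.heckeAlgebra.T hℓ hℓN hℓS))) * X
                  + C ((ℓ : 𝒪''))) ∧
        (∀ q : ℕ, q.Prime → ¬ q ∣ N → q ≠ p → ρ.IsUnramifiedAt q) := by
  intro p _ N _ S hpS hNS O _ _ _ _ _ _ hpO χ
  refine ⟨O, inferInstance, inferInstance, inferInstance, inferInstance, inferInstance,
    inferInstance, Algebra.id O, Module.Finite.self O, ⟨fun a ha => ha⟩, fun a b h => h,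
    S30_core hG hFD p N S hpS hNS O hpO χ⟩

end Fermat.Agent.GAL
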