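import Fermat.Agent.GAL.ALG.S30Assembly
import Fermat.Agent.Lib.FrobDensity.GALInterface

/-!
# `GeomInput` from `ESDatum`

Final form of S30: `Fermat.Agent.GAL.S30_of hG Fermat.Agent.Lib.FrobDensity.gal_frobeniusDensity`
for `hG : GeomInput`.
-/

set_option autoImplicit false

namespace Fermat.Agent.GAL

/-- `GeomInput` follows from the existence of Eichler-Shimura data at all levels. -/
theorem geomInput_of_esDatum
    (h : ∀ (N p : ℕ) [NeZero N] [Fact p.Prime], Nonempty (ESDatum N p)) : GeomInput := by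
  intro N p _ _ q _ hqN
  obtain ⟨D⟩ := h N p
  exact ⟨N, fun hq => hqN (Dvd.dvd.mul_right hq p), ⟨D.toAt⟩⟩

end Fermat.Agent.GAL
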