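import Fermat.Statements.S42
import Fermat.Statements.S29
import Fermat.Agent.S13.FieldOfDef
import Fermat.Agent.GAL.RepAlg

set_option autoImplicit false

/-!
# S42 from S29 (formal wrapper)
-/

namespace Fermat.Agent.GAL

open Polynomial CuspForm

/-- The statement S29, verbatim. -/
def S29Statement : Prop :=
  ∀ {N : ℕ} {g : CuspForm (CongruenceSubgroup.Gamma0 N) 2} (_ : g.IsNormalizedEigenform)
    {p : ℕ} (_ : p.Prime) {k : Type} [Field k] [CharP k p]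
    (φ : integralClosure ℤ ℂ →+* k),
    ∃ ρ : ResidualGaloisRep k, ρ.IsAttachedTo g φ ∧
      ∀ ℓ : ℕ, ℓ.Prime → ¬ ℓ ∣ N * p → ρ.IsUnramifiedAt ℓ

theorem trace_eq_of_charpoly {K V : Type*} [Field K] [AddCommGroup V] [Module K V]
    [Module.Finite K V] (hV : Module.finrank K V = 2) {x : Module.End K V} {t d : K}
    (h : LinearMap.charpoly x = X ^ 2 - C t * X + C d) : LinearMap.trace K V x = t := by
  rw [RepAlg.charpoly_eq_of_finrank_two hV x] at h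
  have := congrArg (fun p => p.coeff 1) h
  simpa using this

noncomputable local instance instDecEqQbarS42Wrapper :
    DecidableEq (AlgebraicClosure ℚ) := Classical.decEq _

open WeierstrassCurve WeierstrassCurve.Affine.Point in
theorem S42_core (h : S29Statement) (P : FreyPackage) (M : ℕ)
    (g : CuspForm (CongruenceSubgroup.Gamma0 M) 2) (hg : g.IsNormalizedEigenform)
    (K : Type) [Field K] [CharP K P.p] (ψ : integralClosure ℤ ℂ →+* K) :
    ∃ (V : Type) (_ : AddCommGroup V) (_ : Module K V)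
      (ρ : Representation K (AlgebraicClosure ℚ ≃ₐ[ℚ] AlgebraicClosure ℚ) V)
      (F : Type) (_ : Field F) (_ : NumberField F) (_ : IsGalois ℚ F)
      (_ : Algebra F (AlgebraicClosure ℚ)) (_ : IsScalarTower ℚ F (AlgebraicClosure ℚ)),
      Module.finrank K V = 2 ∧
      (AlgEquiv.restrictNormalHom (F := ℚ) (K₁ := AlgebraicClosure ℚ) F).ker ≤
        (galoisRepModuleEnd (S := ℚ) (K := AlgebraicClosure ℚ) P.freyCurve P.p).ker ⊓
          ρ.ker ∧
      (∀ ℓ : ℕ, ℓ.Prime → ¬ ℓ ∣ M → ℓ ≠ P.p →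
        ∀ A : ValuationSubring (AlgebraicClosure ℚ), A.LiesOverPrime ℓ →
          ∀ τ : AlgebraicClosure ℚ ≃ₐ[ℚ] AlgebraicClosure ℚ, A.IsFrobeniusAt τ ℓ →
            ∃ a : integralClosure ℤ ℂ, (a : ℂ) = ModularFormClass.qCoeff g ℓ ∧
              LinearMap.trace K V (ρ τ) = ψ a) ∧
      (∀ ℓ : ℕ, ℓ.Prime → ¬ ℓ ∣ M → ℓ ≠ P.p →
        ∀ A : ValuationSubring (AlgebraicClosure ℚ), A.LiesOverPrime ℓ →
          ∀ τ : AlgebraicClosure ℚ ≃ₐ[ℚ] AlgebraicClosure ℚ, A.IsFrobeniusAt τ ℓ →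
            LinearMap.det (ρ τ) = (ℓ : K)) := by
  obtain ⟨ρ0, hatt, -⟩ := h hg P.pp ψ
  obtain ⟨L1, hL1, hρ0⟩ := ρ0.factorsThroughFiniteLevel
  obtain ⟨L2, hL2, hfrey⟩ := S13.frey_exists_field_of_def P
  let F : IntermediateField ℚ (AlgebraicClosure ℚ) :=
    IntermediateField.normalClosure ℚ (L1 ⊔ L2 : IntermediateField ℚ (AlgebraicClosure ℚ))
      (AlgebraicClosure ℚ)
  have hG := Fermat.Agent.Lib.Frobenius.isGalois_algebraicClosure inferInstance
  have hN : Normal ℚ (AlgebraicClosure ℚ) := hG.to_normal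
  have hFfin : FiniteDimensional ℚ F := inferInstance
  have hFnormal : Normal ℚ F := by
    have h0 : @Normal ℚ F _ _ F.algebra' := normalClosure.normal ℚ _ _
    have h1 : (inferInstance : Algebra ℚ F) = F.algebra' := Subsingleton.elim _ _
    rw [← h1] at h0
    exact h0
  have hle : (L1 ⊔ L2 : IntermediateField ℚ (AlgebraicClosure ℚ)) ≤ F :=
    IntermediateField.le_normalClosure _
  have hℓ0 : ∀ ℓ : ℕ, ℓ.Prime → ℓ ≠ P.p → (ℓ : K) ≠ 0 := by
    intro ℓ hℓ hne h0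
    rw [CharP.cast_eq_zero_iff K P.p] at h0
    exact hne ((Nat.prime_dvd_prime_iff_eq P.pp hℓ).mp h0).symm
  refine ⟨ρ0.V, inferInstance, inferInstance, ρ0.ρ, F, inferInstance, ⟨⟩, ⟨⟩,
    inferInstance, inferInstance, ρ0.finrank_eq, ?_, ?_, ?_⟩
  · intro σ hσ
    replace hσ : ∀ y ∈ F, σ y = y := by
      intro y hy
      have h1 := AlgEquiv.restrictNormal_commutes σ F ⟨y, hy⟩
      have h2 : σ.restrictNormal F = 1 := hσ
      rw [h2] at h1
      exact h1.symm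
    refine Subgroup.mem_inf.mpr ⟨?_, ?_⟩
    · rw [MonoidHom.mem_ker]
      refine LinearMap.ext fun x => ?_
      rw [galoisRepModuleEnd_apply, Module.End.one_apply]
      refine hfrey σ ?_ x
      rw [IntermediateField.mem_fixingSubgroup_iff]
      exact fun y hy => hσ y (hle (le_sup_right (a := L1) hy))
    · rw [MonoidHom.mem_ker]
      exact hρ0 σ fun y hy => hσ y (hle (le_sup_left (b := L2) hy))
  · intro ℓ hℓ hℓM hne A hA τ hτ
    obtain ⟨a, ha, hchar⟩ := hatt ℓ hℓ hℓM (hℓ0 ℓ hℓ hne) A hA τ hτ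
    exact ⟨a, ha, trace_eq_of_charpoly ρ0.finrank_eq hchar⟩
  · intro ℓ hℓ hℓM hne A hA τ hτ
    obtain ⟨a, ha, hchar⟩ := hatt ℓ hℓ hℓM (hℓ0 ℓ hℓ hne) A hA τ hτ
    exact RepAlg.det_eq_of_charpoly ρ0.finrank_eq hchar

theorem S42_of_S29 (h : S29Statement) (P : FreyPackage) :
    ∀ M : ℕ, 0 < M → P.EigenformResidualAttachmentAt M := by
  intro M _ g hg 𝔪 h𝔪 hp𝔪
  let _ : Field (integralClosure ℤ ℂ ⧸ 𝔪) := Ideal.Quotient.field 𝔪
  let ψ : integralClosure ℤ ℂ →+* (integralClosure ℤ ℂ ⧸ 𝔪) := Ideal.Quotient.mk 𝔪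
  have hp0 : ((P.p : ℕ) : integralClosure ℤ ℂ ⧸ 𝔪) = 0 := by
    have : ψ (P.p : integralClosure ℤ ℂ) = 0 := Ideal.Quotient.eq_zero_iff_mem.mpr hp𝔪
    simpa using this
  have : CharP (integralClosure ℤ ℂ ⧸ 𝔪) P.p :=
    ringChar.of_eq (CharP.ringChar_of_prime_eq_zero P.pp hp0)
  obtain ⟨V, i1, i2, ρ, F, j1, j2, j3, j4, j5, h1, h2, h3, h4⟩ :=
    S42_core h P M g hg (integralClosure ℤ ℂ ⧸ 𝔪) ψ
  refine ⟨integralClosure ℤ ℂ ⧸ 𝔪, inferInstance, ZMod.algebra _ P.p, V, i1, i2, ρ, ψ, F, j1, j2,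
    j3, j4, j5, ?_, h1, h2, h3, h4⟩
  rw [Ideal.mk_ker]

end Fermat.Agent.GAL
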