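import Mathlib

set_option autoImplicit false

namespace Fermat.Agent.GAL

/-- coordinates of an element of `I • ⊤` lie in `I` -/
theorem repr_mem_of_mem_smul_top {O : Type*} [CommRing O] {Λ : Type*} [AddCommGroup Λ] [Module O Λ]
    {ι : Type*} (b : Module.Basis ι O Λ) (I : Ideal O) {v : Λ}
    (hv : v ∈ I • (⊤ : Submodule O Λ)) (i : ι) : b.repr v i ∈ I := by
  induction hv using Submodule.smul_induction_on' with
  | smul r hr n _ =>
    rw [map_smul, Finsupp.smul_apply, smul_eq_mul]
    exact I.mul_mem_right _ hr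
  | add x _ y _ hx hy =>
    rw [map_add, Finsupp.add_apply]
    exact I.add_mem hx hy

/-- in a Hausdorff ring an element of all the powers of the ideal vanishes -/
theorem eq_zero_of_forall_mem_pow {O : Type*} [CommRing O] (I : Ideal O) [IsHausdorff I O] {x : O}
    (hx : ∀ n : ℕ, x ∈ I ^ n) : x = 0 := by
  apply IsHausdorff.haus (I := I) inferInstance
  intro n
  rw [SModEq.zero, smul_eq_mul, Ideal.mul_top]
  exact hx n

/-- An endomorphism of a finite free module over a Hausdorff local ring which is a scalar modulo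
every power of the maximal ideal is a scalar. -/
theorem isScalar_of_forall_mod {O : Type} [CommRing O] [IsLocalRing O]
    [IsHausdorff (IsLocalRing.maximalIdeal O) O]
    {Λ : Type} [AddCommGroup Λ] [Module O Λ] [Module.Free O Λ] [Module.Finite O Λ]
    (X : Module.End O Λ)
    (h : ∀ n : ℕ, ∃ s : O, ∀ v : Λ,
      X v - s • v ∈ (IsLocalRing.maximalIdeal O ^ n) • (⊤ : Submodule O Λ)) :
    ∃ t : O, X = t • 1 := by
  classical
  set b := Module.Free.chooseBasis O Λ with hb
  have hoff : ∀ i j, i ≠ j → b.repr (X (b j)) i = 0 := by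
    intro i j hij
    apply eq_zero_of_forall_mem_pow (IsLocalRing.maximalIdeal O)
    intro n
    obtain ⟨s, hs⟩ := h n
    have h1 := repr_mem_of_mem_smul_top b _ (hs (b j)) i
    rwa [map_sub, map_smul, Finsupp.sub_apply, Finsupp.smul_apply, b.repr_self,
      Finsupp.single_eq_of_ne hij, smul_zero, sub_zero] at h1
  have hdiag : ∀ i j, b.repr (X (b i)) i = b.repr (X (b j)) j := by
    intro i j
    rw [← sub_eq_zero]
    apply eq_zero_of_forall_mem_pow (IsLocalRing.maximalIdeal O)
    intro n
    obtain ⟨s, hs⟩ := h n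
    have h1 := repr_mem_of_mem_smul_top b _ (hs (b i)) i
    have h2 := repr_mem_of_mem_smul_top b _ (hs (b j)) j
    rw [map_sub, map_smul, Finsupp.sub_apply, Finsupp.smul_apply, b.repr_self,
      Finsupp.single_eq_same, smul_eq_mul, mul_one] at h1 h2
    have h3 := Ideal.sub_mem _ h1 h2
    rwa [sub_sub_sub_cancel_right] at h3
  rcases isEmpty_or_nonempty (Module.Free.ChooseBasisIndex O Λ) with hE | ⟨⟨i₀⟩⟩
  · exact ⟨0, b.ext fun j => hE.elim j⟩
  · refine ⟨b.repr (X (b i₀)) i₀, b.ext fun j => ?_⟩
    apply b.repr.injective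
    ext i
    rw [LinearMap.smul_apply, Module.End.one_apply, map_smul, Finsupp.smul_apply, b.repr_self]
    by_cases hij : i = j
    · subst hij
      rw [Finsupp.single_eq_same, smul_eq_mul, mul_one]
      exact hdiag i i₀
    · rw [Finsupp.single_eq_of_ne hij, smul_zero]
      exact hoff i j hij

end Fermat.Agent.GAL
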