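import Fermat.Agent.GAL.ALG.Defs
import Fermat.Agent.GAL.ALG.ScalarLimit
import Fermat.Agent.Lib.QuadRep.Powers

set_option autoImplicit false

namespace Fermat.Agent.GAL

/-- Linear endomorphisms preserve `I • ⊤`. -/
theorem Scalar_map_mem_smul_top {O : Type} [CommRing O] {Λ : Type} [AddCommGroup Λ] [Module O Λ]
    (I : Ideal O) (f : Module.End O Λ) {x : Λ} (hx : x ∈ I • (⊤ : Submodule O Λ)) :
    f x ∈ I • (⊤ : Submodule O Λ) := by
  have h1 : f x ∈ (I • (⊤ : Submodule O Λ)).map f := Submodule.mem_map_of_mem hx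
  rw [Submodule.map_smul''] at h1
  exact Submodule.smul_mono le_rfl le_top h1

/-- **From Frobenius elements to all of `G_ℚ`.** If all Frobenius elements outside a finite set
satisfy `X^2 - a ℓ X + ℓ` on a continuous `G_ℚ`-lattice, then `g + ε(g) g⁻¹` is a scalar for
every `g`. (Works for `O` a field as well: then `maximalIdeal = ⊥`.) -/
theorem exists_scalar (hFD : FrobeniusDensity) {O : Type} [CommRing O] [IsLocalRing O]
    [IsHausdorff (IsLocalRing.maximalIdeal O) O]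
    {Λ : Type} [AddCommGroup Λ] [Module O Λ] [Module.Free O Λ] [Module.Finite O Λ]
    (r : GQ →* Module.End O Λ) (hr : GaloisActionIsAdicContinuous O r)
    (ε : GQ →* Oˣ)
    (hε : ∀ n : ℕ, ∃ F : IntermediateField ℚ (AlgebraicClosure ℚ), FiniteDimensional ℚ F ∧
      ∀ σ : GQ, (∀ x ∈ F, σ x = x) → ((ε σ : Oˣ) : O) - 1 ∈ IsLocalRing.maximalIdeal O ^ n)
    (B : Finset ℕ) (a : ℕ → O)
    (hεF : ∀ ℓ : ℕ, ℓ.Prime → ℓ ∉ B → ∀ A : ValuationSubring (AlgebraicClosure ℚ),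
      A.LiesOverPrime ℓ → ∀ σ : GQ, A.IsFrobeniusAt σ ℓ → ((ε σ : Oˣ) : O) = (ℓ : O))
    (hES : ∀ ℓ : ℕ, ℓ.Prime → ℓ ∉ B → ∀ A : ValuationSubring (AlgebraicClosure ℚ),
      A.LiesOverPrime ℓ → ∀ σ : GQ, A.IsFrobeniusAt σ ℓ →
        r σ * r σ - a ℓ • r σ + (ℓ : O) • (1 : Module.End O Λ) = 0) (g : GQ) :
    ∃ t : O, r g + ((ε g : Oˣ) : O) • r g⁻¹ = t • 1 := by
  apply isScalar_of_forall_mod
  intro n
  obtain ⟨L, hLfin, hL⟩ := hr n
  obtain ⟨F, hFfin, hF⟩ := hε n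
  have hEfin : FiniteDimensional ℚ (L ⊔ F : IntermediateField ℚ (AlgebraicClosure ℚ)) :=
    IntermediateField.finiteDimensional_sup L F
  obtain ⟨ℓ, A, σ, b, hℓ, hℓB, hA, hFrob, hσb⟩ := hFD (L ⊔ F) hEfin g B
  set I := IsLocalRing.maximalIdeal O ^ n with hI
  set h : GQ := σ ^ b with hh
  set τ : GQ := h⁻¹ * g with hτ
  have hg : g = h * τ := by rw [hτ, mul_inv_cancel_left]
  have hginv : g⁻¹ = τ⁻¹ * h⁻¹ := by rw [hg, mul_inv_rev]
  -- `τ` fixes `L ⊔ F`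
  have hτfix : ∀ x ∈ (L ⊔ F : IntermediateField ℚ (AlgebraicClosure ℚ)), τ x = x := by
    intro x hx
    have h1 : h x = g x := hσb x hx
    have h2 : τ x = h⁻¹ (g x) := rfl
    rw [h2, ← h1]
    exact AlgEquiv.symm_apply_apply h x
  have hτinvfix : ∀ x ∈ (L ⊔ F : IntermediateField ℚ (AlgebraicClosure ℚ)), τ⁻¹ x = x := by
    intro x hx
    have h1 := hτfix x hx
    conv_lhs => rw [← h1]
    exact AlgEquiv.symm_apply_apply τ x
  have hLle : L ≤ L ⊔ F := le_sup_left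
  have hFle : F ≤ L ⊔ F := le_sup_right
  have h1 : ∀ v : Λ, r τ v - v ∈ I • (⊤ : Submodule O Λ) :=
    hL τ (fun x hx => hτfix x (hLle hx))
  have h2 : ∀ v : Λ, r τ⁻¹ v - v ∈ I • (⊤ : Submodule O Λ) :=
    hL τ⁻¹ (fun x hx => hτinvfix x (hLle hx))
  have h3 : ((ε τ : Oˣ) : O) - 1 ∈ I := hF τ (fun x hx => hτfix x (hFle hx))
  -- the relation for `h = σ ^ b`
  obtain ⟨s, hs⟩ := Fermat.Agent.Lib.QuadRep.quadratic_pow (r σ) (a ℓ) (ℓ : O)
    (hES ℓ hℓ hℓB A hA σ hFrob) b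
  have hrh : r h = r σ ^ b := by rw [hh, map_pow]
  have hεh : ((ε h : Oˣ) : O) = (ℓ : O) ^ b := by
    rw [hh, map_pow, Units.val_pow_eq_pow_val, hεF ℓ hℓ hℓB A hA σ hFrob]
  rw [← hrh, ← hεh] at hs
  have hYY' : r h * r h⁻¹ = 1 := by rw [← map_mul, mul_inv_cancel, map_one]
  have hsum : r h + ((ε h : Oˣ) : O) • r h⁻¹ = s • 1 := by
    have := congrArg (fun Z => Z * r h⁻¹) hs
    simp only [add_mul, sub_mul, zero_mul, smul_mul_assoc, one_mul, mul_assoc, hYY', mul_one]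
      at this
    rw [← sub_eq_zero, ← this]
    abel
  refine ⟨s, fun v => ?_⟩
  have hsv : s • v = r h v + ((ε h : Oˣ) : O) • r h⁻¹ v := by
    have := congrArg (fun Z : Module.End O Λ => Z v) hsum
    simpa using this.symm
  have hX : (r g + ((ε g : Oˣ) : O) • r g⁻¹) v - s • v
      = r h (r τ v - v) + ((ε h : Oˣ) : O) •
        ((((ε τ : Oˣ) : O) - 1) • r τ⁻¹ (r h⁻¹ v) + (r τ⁻¹ (r h⁻¹ v) - r h⁻¹ v)) := by
    have e1 : r g v = r h (r τ v) := by rw [hg, map_mul]; rfl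
    have e2 : r g⁻¹ v = r τ⁻¹ (r h⁻¹ v) := by rw [hginv, map_mul]; rfl
    have e3 : ((ε g : Oˣ) : O) = ((ε h : Oˣ) : O) * ((ε τ : Oˣ) : O) := by
      rw [hg, map_mul, Units.val_mul]
    rw [hsv, LinearMap.add_apply, LinearMap.smul_apply, e1, e2, e3, map_sub, sub_smul, one_smul,
      mul_smul]
    simp only [smul_add, smul_sub]
    abel
  rw [hX]
  refine Submodule.add_mem _ (Scalar_map_mem_smul_top I _ (h1 v))
    (Submodule.smul_mem _ _ (Submodule.add_mem _ ?_ (h2 _)))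
  exact Submodule.smul_mem_smul h3 Submodule.mem_top

end Fermat.Agent.GAL
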